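import Fermat.Agent.LeechUnique.FrameLattice

/-!
# At most `196560` short vectors in a frame

`1104 + 128 · A₈ + 24 · |C|` for the code `C` of the frame, with `A₈ ≤ 759` and `|C| ≤ 4096`;
equality makes it a Golay code.
-/

set_option autoImplicit false

noncomputable section

open Matrix Finset
open scoped Classical

namespace FA.KissingUnique

open FA.LeechUnique FA.Gleason

variable {Λ : AddSubgroup (Fin 24 → ℤ)}

/-- The words of weight eight pack five point sets. -/
theorem card_octads_le {C : Submodule (ZMod 2) (Fin 24 → ZMod 2)}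
    (hC : ∀ c ∈ C, c ≠ 0 → 8 ≤ hammingNorm c) :
    (univ.filter fun c => c ∈ C ∧ hammingNorm c = 8).card ≤ 759 := by
  set O := univ.filter fun c => c ∈ C ∧ hammingNorm c = 8
  set P := fun c : Fin 24 → ZMod 2 => (univ.filter fun i => c i ≠ 0).powersetCard 5
  have hdisj : (O : Set (Fin 24 → ZMod 2)).PairwiseDisjoint P := by
    intro c hc d hd hne
    rw [Function.onFun, disjoint_left]
    intro S hSc hSd
    simp only [P, mem_powersetCard] at hSc hSd
    simp only [O, coe_filter, Set.mem_ofPred_eq, mem_univ, true_and] at hc hd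
    have h8 := hC (c + d) (C.add_mem hc.1 hd.1) fun e => hne (funext fun i => by
      have := congrFun e i
      revert this
      exact (by decide : ∀ a b : ZMod 2, a + b = 0 → a = b) (c i) (d i))
    have hsub : (univ.filter fun i => (c + d) i ≠ 0) ⊆
        ((univ.filter fun i => c i ≠ 0) \ S) ∪ ((univ.filter fun i => d i ≠ 0) \ S) := by
      intro i hi
      simp only [mem_filter, mem_univ, true_and, Pi.add_apply] at hi
      by_cases hiS : i ∈ S
      · exfalso
        have h1 := (mem_filter.1 (hSc.1 hiS)).2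
        have h2 := (mem_filter.1 (hSd.1 hiS)).2
        exact hi ((by decide : ∀ a b : ZMod 2, a ≠ 0 → b ≠ 0 → a + b = 0) _ _ h1 h2)
      · simp only [mem_union, mem_sdiff, mem_filter, mem_univ, true_and, hiS, not_false_eq_true,
          and_true]
        by_contra hno
        push Not at hno
        exact hi (by rw [hno.1, hno.2, add_zero])
    have hle := (card_le_card hsub).trans (card_union_le _ _)
    rw [card_sdiff_of_subset hSc.1, card_sdiff_of_subset hSd.1,
      show (univ.filter fun i => c i ≠ 0).card = 8 from hc.2,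
      show (univ.filter fun i => d i ≠ 0).card = 8 from hd.2, hSc.2] at hle
    change 8 ≤ hammingNorm (c + d) at h8
    unfold hammingNorm at h8
    omega
  have h := card_le_card (show O.biUnion P ⊆ (univ : Finset (Fin 24)).powersetCard 5 from
    fun S hS => by
      obtain ⟨c, -, hS⟩ := mem_biUnion.1 hS
      exact mem_powersetCard.2 ⟨subset_univ _, (mem_powersetCard.1 hS).2⟩)
  rw [card_biUnion hdisj, sum_congr rfl (g := fun _ => 56) fun c hc => ?_, sum_const,
    card_powersetCard, card_univ, Fintype.card_fin, smul_eq_mul] at h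
  · norm_num [Nat.choose_eq_descFactorial_div_factorial, Nat.descFactorial, Nat.factorial] at h
    omega
  · simp only [P, card_powersetCard]
    rw [show (univ.filter fun i => c i ≠ 0).card = 8 from (mem_filter.1 hc).2.2]
    rfl

/-- The word of an even vector. -/
def halfWord (x : Fin 24 → ℤ) : Fin 24 → ZMod 2 := fun i => ((x i / 2 : ℤ) : ZMod 2)

theorem int_sq_le_one {t : ℤ} (h : t * t ≤ 1) : t = -1 ∨ t = 0 ∨ t = 1 := by
  rcases le_or_gt t (-2) with h' | h'
  · nlinarith
  rcases le_or_gt 2 t with h'' | h''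
  · nlinarith
  omega

theorem four_single_notMem (h : IsPreFrame Λ) (p : Fin 24) : (Pi.single p 4 : Fin 24 → ℤ) ∉ Λ :=
  fun hp => by
    have := h.min _ hp fun e => by simpa using congrFun e p
    norm_num [dotProduct_single] at this

/-- The even vectors without code word. -/
theorem card_zero_word_le (V : Finset (Fin 24 → ℤ))
    (hV : ∀ x ∈ V, x ⬝ᵥ x = 32 ∧ ∀ i, (4 : ℤ) ∣ x i) : V.card ≤ 1104 := by
  let S : Finset ((Fin 24 × Bool) × Fin 24 × Bool) := univ.filter fun q => q.1.1 < q.2.1
  let g : (Fin 24 × Bool) × Fin 24 × Bool → Fin 24 → ℤ := fun q =>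
    Pi.single q.1.1 (if q.1.2 then 4 else -4) + Pi.single q.2.1 (if q.2.2 then 4 else -4)
  have hsub : V ⊆ S.image g := fun x hx => by
    obtain ⟨hn, h4⟩ := hV x hx
    have hz : ∀ i, x i = 4 * (x i / 4) := fun i => (Int.mul_ediv_cancel' (h4 i)).symm
    have hsum : ∑ i, x i / 4 * (x i / 4) = 2 := by
      rw [dotProduct, sum_congr rfl fun i _ => show x i * x i = 16 * (x i / 4 * (x i / 4)) by
        conv_lhs => rw [hz i]
        ring, ← mul_sum] at hn
      omega
    have hone : ∀ i, x i / 4 * (x i / 4) ≤ 1 := fun i => by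
      by_contra hlt
      have hle := single_le_sum (f := fun i => x i / 4 * (x i / 4))
        (fun i _ => mul_self_nonneg _) (mem_univ i)
      rw [hsum] at hle
      have h2 : x i / 4 * (x i / 4) = 2 := by omega
      rcases le_or_gt (x i / 4) (-2) with h' | h'
      · nlinarith
      rcases le_or_gt 2 (x i / 4) with h'' | h''
      · nlinarith
      interval_cases x i / 4 <;> omega
    set T := univ.filter fun i => x i ≠ 0 with hT
    have hTcard : T.card = 2 := by
      have : (T.card : ℤ) = 2 := by
        rw [← hsum, hT, card_filter]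
        push_cast
        refine sum_congr rfl fun i _ => ?_
        have := hz i
        rcases int_sq_le_one (hone i) with e | e | e <;> rw [e] <;> simp <;> omega
      exact_mod_cast this
    obtain ⟨a, b, hab, hTab⟩ := card_eq_two.1 hTcard
    have hval : ∀ i ∈ T, x i = 4 ∨ x i = -4 := fun i hi => by
      have := hz i
      have h0 := (mem_filter.1 hi).2
      rcases int_sq_le_one (hone i) with e | e | e <;> omega
    have hval' : ∀ i ∈ T, (if decide (x i = 4) then (4 : ℤ) else -4) = x i := fun i hi => by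
      rcases hval i hi with e | e <;> simp [e]
    have hx0 : ∀ i, i ≠ a → i ≠ b → x i = 0 := fun i h1 h2 => by
      by_contra h0
      have : i ∈ T := mem_filter.2 ⟨mem_univ i, h0⟩
      rw [hTab] at this
      simp [h1, h2] at this
    have ha : a ∈ T := by rw [hTab]; simp
    have hb : b ∈ T := by rw [hTab]; simp
    rcases lt_or_gt_of_ne hab with hlt | hlt
    · refine mem_image.2 ⟨((a, decide (x a = 4)), b, decide (x b = 4)), by simp [S, hlt],
        funext fun i => ?_⟩
      simp only [g, hval' a ha, hval' b hb, Pi.add_apply]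
      rcases eq_or_ne i a with rfl | hia
      · simp [hab]
      rcases eq_or_ne i b with rfl | hib
      · simp [hia]
      simp [hia, hib, hx0 i hia hib]
    · refine mem_image.2 ⟨((b, decide (x b = 4)), a, decide (x a = 4)), by simp [S, hlt],
        funext fun i => ?_⟩
      simp only [g, hval' a ha, hval' b hb, Pi.add_apply]
      rcases eq_or_ne i a with rfl | hia
      · simp [hab]
      rcases eq_or_ne i b with rfl | hib
      · simp [hia]
      simp [hia, hib, hx0 i hia hib]
  refine (card_le_card hsub).trans (card_image_le.trans (le_of_eq ?_))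
  have : (univ.filter fun p : Fin 24 × Fin 24 => p.1 < p.2).card = 276 := by decide +kernel
  rw [show S = ((univ.filter fun p : Fin 24 × Fin 24 => p.1 < p.2) ×ˢ
      (univ : Finset (Bool × Bool))).map
        ⟨fun q => ((q.1.1, q.2.1), q.1.2, q.2.2), fun u v e => by simp_all [Prod.ext_iff]⟩ by
    ext ⟨⟨i, bi⟩, j, bj⟩
    simp [S], card_map, card_product, this]
  rfl

/-- The vectors over one word of weight eight. -/
theorem card_octad_fibre_le (h : IsPreFrame Λ) {c : Fin 24 → ZMod 2} (hc : hammingNorm c = 8)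
    (V : Finset (Fin 24 → ℤ))
    (hV : ∀ x ∈ V, x ∈ Λ ∧ x ⬝ᵥ x = 32 ∧ (∀ i, (2 : ℤ) ∣ x i) ∧ halfWord x = c) :
    V.card ≤ 128 := by
  obtain ⟨p, hp⟩ : ∃ p, c p ≠ 0 := by
    by_contra! h0
    rw [show c = 0 from funext h0, hammingNorm_zero] at hc
    omega
  set T := univ.filter fun i => c i ≠ 0 with hTdef
  have hTcard : T.card = 8 := hc
  have hshape : ∀ x ∈ V, ∀ i, x i = if i ∈ T then 2 * (x i / 2) else 0 := fun x hx i => by
    obtain ⟨-, hn, h2, hw⟩ := hV x hx
    have he : ∀ i, x i = 2 * (x i / 2) := fun i => (Int.mul_ediv_cancel' (h2 i)).symm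
    have hsum : ∑ i, x i / 2 * (x i / 2) = 8 := by
      rw [dotProduct, sum_congr rfl fun i _ => show x i * x i = 4 * (x i / 2 * (x i / 2)) by
        conv_lhs => rw [he i]
        ring, ← mul_sum] at hn
      omega
    have hodd : ∀ i ∈ T, 1 ≤ x i / 2 * (x i / 2) := fun i hi => by
      have h0 := (mem_filter.1 hi).2
      rw [← hw] at h0
      have : x i / 2 ≠ 0 := fun e => h0 (by simp [halfWord, e])
      nlinarith [Int.one_le_abs this, abs_mul_abs_self (x i / 2)]
    have h8 : (8 : ℤ) ≤ ∑ i ∈ T, x i / 2 * (x i / 2) := by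
      have := sum_le_sum hodd
      simp only [sum_const, hTcard, nsmul_eq_mul, mul_one] at this
      push_cast at this
      exact this
    have hrest : ∀ i, i ∉ T → x i / 2 * (x i / 2) = 0 := fun i hi => by
      have hsplit := sum_add_sum_compl T fun i => x i / 2 * (x i / 2)
      have hnn : ∀ i ∈ Tᶜ, 0 ≤ x i / 2 * (x i / 2) := fun i _ => mul_self_nonneg _
      exact (sum_eq_zero_iff_of_nonneg hnn).1
        (le_antisymm (by linarith) (sum_nonneg hnn)) i (mem_compl.2 hi)
    split_ifs with hi
    · exact he i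
    · rw [he i, mul_self_eq_zero.1 (hrest i hi), mul_zero]
  have hpm : ∀ x ∈ V, ∀ i ∈ T, x i = 2 ∨ x i = -2 := fun x hx i hi => by
    obtain ⟨-, hn, -, -⟩ := hV x hx
    have hne : ∀ j ∈ T, 4 ≤ x j * x j := fun j hj => by
      obtain ⟨-, -, h2, hw⟩ := hV x hx
      have h0 := (mem_filter.1 hj).2
      rw [← hw] at h0
      obtain ⟨k, hk⟩ := h2 j
      have : k ≠ 0 := fun e => h0 (by simp [halfWord, hk, e])
      rw [hk]
      nlinarith [Int.one_le_abs this, abs_mul_abs_self k]
    have h1 : x i * x i + ∑ j ∈ T.erase i, x j * x j ≤ 32 := by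
      rw [add_sum_erase _ (fun j => x j * x j) hi, ← hn]
      exact sum_le_univ_sum_of_nonneg fun j => mul_self_nonneg _
    have h2 : (28 : ℤ) ≤ ∑ j ∈ T.erase i, x j * x j := by
      have := sum_le_sum fun j (hj : j ∈ T.erase i) => hne j (mem_of_mem_erase hj)
      simp only [sum_const, card_erase_of_mem hi, hTcard, nsmul_eq_mul] at this
      push_cast at this
      linarith
    have h4 := hne i hi
    exact mul_self_eq_mul_self_iff.1 (by linarith : x i * x i = 2 * 2)
  let D : (Fin 24 → ℤ) → Finset (Fin 24) := fun x => (T.erase p).filter fun i => x i = -2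
  refine (card_le_card_of_injOn D (fun x _ => mem_powerset.2 (filter_subset _ _)) ?_).trans
    (le_of_eq (b := 128) (by
      rw [card_powerset, card_erase_of_mem (mem_filter.2 ⟨mem_univ p, hp⟩), hTcard]; rfl))
  intro x hx y hy e
  have hxm := mem_coe.1 hx
  have hym := mem_coe.1 hy
  have hoff : ∀ i, i ≠ p → x i = y i := fun i hi => by
    by_cases hiT : i ∈ T
    · have hiff := Finset.ext_iff.1 e i
      simp only [D, mem_filter, mem_erase, ne_eq, hi, not_false_eq_true, hiT, and_self,
        true_and] at hiff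
      rcases hpm x hxm i hiT with h1 | h1 <;> rcases hpm y hym i hiT with h2 | h2 <;> omega
    · rw [hshape x hxm i, hshape y hym i, if_neg hiT, if_neg hiT]
  have hpT : p ∈ T := mem_filter.2 ⟨mem_univ p, hp⟩
  have key : x p = y p := by
    by_contra hne
    have hd : x - y = Pi.single p 4 ∨ x - y = -Pi.single p 4 := by
      rcases hpm x hxm p hpT with h1 | h1 <;> rcases hpm y hym p hpT with h2 | h2
      · omega
      · refine Or.inl (funext fun i => ?_)
        rcases eq_or_ne i p with rfl | hi
        · simp [h1, h2]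
        · simp [hi, hoff i hi]
      · refine Or.inr (funext fun i => ?_)
        rcases eq_or_ne i p with rfl | hi
        · simp [h1, h2]
        · simp [hi, hoff i hi]
      · omega
    have hmem := Λ.sub_mem (hV x hxm).1 (hV y hym).1
    rcases hd with hd | hd <;> rw [hd] at hmem
    · exact four_single_notMem h p hmem
    · exact four_single_notMem h p (neg_mem_iff.1 hmem)
  funext i
  rcases eq_or_ne i p with rfl | hi
  · exact key
  · exact hoff i hi

/-- The odd vectors. -/
theorem card_odd_le (V : Finset (Fin 24 → ℤ))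
    (hV : ∀ x ∈ V, x ∈ Λ ∧ x ⬝ᵥ x = 32 ∧ x 0 % 2 = 1) (hpar : ∀ x ∈ Λ, ∀ i j, x i % 2 = x j % 2) :
    V.card ≤ 24 * Nat.card (frameCode Λ) := by
  rcases V.eq_empty_or_nonempty with rfl | ⟨x₁, hx₁⟩
  · simp
  have hodd : ∀ x ∈ V, ∀ i, x i % 2 = 1 := fun x hx i => by
    rw [hpar x (hV x hx).1 i 0, (hV x hx).2.2]
  have hone : ∀ x ∈ V, ∀ i, 1 ≤ x i * x i := fun x hx i => by
    have := hodd x hx i
    have : x i ≠ 0 := by omega
    nlinarith [Int.one_le_abs this, abs_mul_abs_self (x i)]
  have hsmall : ∀ x ∈ V, ∀ i, x i = 1 ∨ x i = -1 ∨ x i = 3 ∨ x i = -3 := fun x hx i => by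
    have h1 := add_sum_erase univ (fun j => x j * x j) (mem_univ i)
    have h2 : (23 : ℤ) ≤ ∑ j ∈ univ.erase i, x j * x j := by
      have := sum_le_sum fun j (_ : j ∈ (univ.erase i : Finset (Fin 24))) => hone x hx j
      simp only [sum_const, card_erase_of_mem (mem_univ i), card_univ, Fintype.card_fin,
        nsmul_eq_mul, mul_one] at this
      push_cast at this
      exact this
    have h3 : ∑ j, x j * x j = 32 := (hV x hx).2.1
    have h4 : x i * x i ≤ 9 := by linarith
    have := hodd x hx i
    have h5 : -3 ≤ x i := by nlinarith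
    have h6 : x i ≤ 3 := by nlinarith
    omega
  have hpos : ∀ x ∈ V, ∃ p, x p * x p = 9 ∧ ∀ i, i ≠ p → x i * x i = 1 := fun x hx => by
    have hsq : ∀ i, x i * x i = 1 + 8 * if x i * x i = 9 then 1 else 0 := fun i => by
      rcases hsmall x hx i with e | e | e | e <;> rw [e] <;> norm_num
    have h3 : ∑ j, x j * x j = 32 := (hV x hx).2.1
    rw [sum_congr rfl fun i _ => hsq i, sum_add_distrib, ← mul_sum, sum_boole, sum_const,
      card_univ, Fintype.card_fin, nsmul_eq_mul] at h3
    push_cast at h3
    have h1 : (univ.filter fun i => x i * x i = 9).card = 1 := by omega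
    obtain ⟨p, hp⟩ := card_eq_one.1 h1
    have hpm : p ∈ univ.filter fun i => x i * x i = 9 := by rw [hp]; exact mem_singleton_self p
    refine ⟨p, (mem_filter.1 hpm).2, fun i hi => ?_⟩
    have : i ∉ univ.filter fun i => x i * x i = 9 := by rw [hp]; simpa using hi
    simp only [mem_filter, mem_univ, true_and] at this
    rw [hsq i, if_neg this]; ring
  choose! pos hpos9 hpos1 using hpos
  let code : (Fin 24 → ℤ) → Fin 24 → ZMod 2 := fun x => halfWord (x - x₁)
  have hcode : ∀ x ∈ V, code x ∈ frameCode Λ := fun x hx => by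
    refine ⟨fun i => (x - x₁) i / 2, ?_, fun i => rfl⟩
    rw [show ((2 : ℤ) • fun i => (x - x₁) i / 2) = x - x₁ from funext fun i => by
      simp only [Pi.smul_apply, smul_eq_mul, Pi.sub_apply]
      have := hodd x hx i
      have := hodd x₁ hx₁ i
      omega]
    exact Λ.sub_mem (hV x hx).1 (hV x₁ hx₁).1
  have hinj : Set.InjOn (fun x => (pos x, code x)) (V : Set (Fin 24 → ℤ)) := by
    intro x hx y hy e
    have hxm := mem_coe.1 hx
    have hym := mem_coe.1 hy
    simp only [Prod.mk.injEq] at e
    funext i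
    have hc := congrFun e.2 i
    simp only [code, halfWord, Pi.sub_apply, ZMod.intCast_eq_intCast_iff'] at hc
    have hx2 := hodd x hxm i
    have hy2 := hodd y hym i
    have h12 := hodd x₁ hx₁ i
    push_cast at hc
    rcases eq_or_ne i (pos x) with rfl | hi
    · have h9 := hpos9 x hxm
      have h9' := hpos9 y hym
      rw [← e.1] at h9'
      rcases hsmall x hxm (pos x) with a | a | a | a <;>
        rcases hsmall y hym (pos x) with b | b | b | b <;>
          simp only [a, b] at h9 h9' hc ⊢ <;> omega
    · have h1 := hpos1 x hxm i hi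
      have h1' := hpos1 y hym i (e.1 ▸ hi)
      rcases hsmall x hxm i with a | a | a | a <;>
        rcases hsmall y hym i with b | b | b | b <;>
          simp only [a, b] at h1 h1' hc ⊢ <;> omega
  refine (card_le_card_of_injOn (t := univ ×ˢ univ.filter fun c => c ∈ frameCode Λ) _
    (fun x hx => mem_product.2 ⟨mem_univ _, mem_filter.2 ⟨mem_univ _, hcode x (mem_coe.1 hx)⟩⟩)
    hinj).trans (le_of_eq ?_)
  rw [card_product, card_univ, Fintype.card_fin]
  congr 1
  rw [Nat.card_eq_fintype_card, ← Fintype.card_subtype]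

/-- **Equality forces a Golay code and an odd vector.** -/
theorem golay_of_short_count (h : IsPreFrame Λ) (V : Finset (Fin 24 → ℤ))
    (hV : ∀ x ∈ V, x ∈ Λ ∧ x ⬝ᵥ x = 32) (hcard : V.card = 196560) :
    IsGolayLike (frameCode Λ) ∧ ∃ x ∈ Λ, ∀ i, x i % 2 = 1 := by
  set C := frameCode Λ
  set V₁ := V.filter fun x => x 0 % 2 = 1
  set V₀ := V.filter fun x => ¬x 0 % 2 = 1
  have he : ∀ x ∈ V₀, ∀ i, (2 : ℤ) ∣ x i := fun x hx i => by
    obtain ⟨hxV, h0⟩ := mem_filter.1 hx
    have := h.parity x (hV x hxV).1 i 0
    omega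
  have hword : ∀ x ∈ V₀, halfWord x ∈ C ∧
      (halfWord x = 0 ∨ hammingNorm (halfWord x) = 8) := fun x hx => by
    obtain ⟨hxV, -⟩ := mem_filter.1 hx
    have he' : ∀ i, x i = 2 * (x i / 2) := fun i => (Int.mul_ediv_cancel' (he x hx i)).symm
    have hmem : halfWord x ∈ C := ⟨fun i => x i / 2, by
      rw [show ((2 : ℤ) • fun i => x i / 2) = x from funext fun i => (he' i).symm]
      exact (hV x hxV).1, fun _ => rfl⟩
    refine ⟨hmem, (eq_or_ne (halfWord x) 0).imp_right fun hne => le_antisymm ?_
      ((h.weights hmem).2 hne)⟩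
    have hn := (hV x hxV).2
    rw [dotProduct, sum_congr rfl fun i _ => show x i * x i = 4 * (x i / 2 * (x i / 2)) by
      conv_lhs => rw [he' i]
      ring, ← mul_sum] at hn
    have : (hammingNorm (halfWord x) : ℤ) ≤ ∑ i, x i / 2 * (x i / 2) := by
      unfold hammingNorm
      rw [card_filter]
      push_cast
      refine sum_le_sum fun i _ => ?_
      split_ifs with h1
      · have : x i / 2 ≠ 0 := fun e => h1 (by simp [halfWord, e])
        nlinarith [Int.one_le_abs this, abs_mul_abs_self (x i / 2)]
      · exact mul_self_nonneg _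
    omega
  set O := univ.filter fun c => c ∈ C ∧ hammingNorm c = 8
  have hsub : V₀.image halfWord ⊆ insert 0 O := fun c hc => by
    obtain ⟨x, hx, rfl⟩ := mem_image.1 hc
    rcases (hword x hx).2 with e | e
    · simp [e]
    · exact mem_insert_of_mem (mem_filter.2 ⟨mem_univ _, (hword x hx).1, e⟩)
  have hV₀ : V₀.card ≤ 1104 + 128 * O.card := by
    rw [card_eq_sum_card_fiberwise (t := insert 0 O)
      (fun x hx => hsub (mem_image_of_mem _ (mem_coe.1 hx))), sum_insert (by simp [O])]
    refine add_le_add (card_zero_word_le _ fun x hx => ?_) ?_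
    · obtain ⟨hx0, hz⟩ := mem_filter.1 hx
      refine ⟨(hV x (mem_filter.1 hx0).1).2, fun i => ?_⟩
      have := two_dvd_of_cast (congrFun hz i)
      have := he x hx0 i
      omega
    · rw [mul_comm]
      refine sum_le_card_nsmul _ _ 128 fun c hc => ?_
      refine card_octad_fibre_le h (mem_filter.1 hc).2.2 _ fun x hx => ?_
      obtain ⟨hx0, hz⟩ := mem_filter.1 hx
      exact ⟨(hV x (mem_filter.1 hx0).1).1, (hV x (mem_filter.1 hx0).1).2, he x hx0, hz⟩
  have hV₁ : V₁.card ≤ 24 * Nat.card C := card_odd_le _ (fun x hx => by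
    obtain ⟨hxV, h0⟩ := mem_filter.1 hx
    exact ⟨(hV x hxV).1, (hV x hxV).2, h0⟩) h.parity
  have hsplit : V₁.card + V₀.card = V.card := card_filter_add_card_filter_not _
  have hO : O.card ≤ 759 := card_octads_le (C := C) fun c hc => (h.weights hc).2
  have hle : C ≤ dual C := fun v hv => mem_dual.2 fun c hc => h.orth hv hc
  have hdual := card_mul_card_dual C
  have hmono : Nat.card C ≤ Nat.card (dual C) :=
    Nat.card_le_card_of_injective (Submodule.inclusion hle) (Submodule.inclusion_injective hle)
  have hC : Nat.card C ≤ 4096 := by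
    by_contra hlt
    have : 4097 * 4097 ≤ Nat.card C * Nat.card (dual C) :=
      Nat.mul_le_mul (by omega) (by omega)
    rw [hdual] at this
    norm_num at this
  have hC' : Nat.card C = 4096 := by omega
  have heq : C = dual C := by
    have hd : Nat.card (dual C) = 4096 := by
      rw [hC'] at hdual
      omega
    exact SetLike.coe_injective (Set.eq_of_subset_of_ncard_le hle
      (le_of_eq (hd.trans hC'.symm)))
  refine ⟨⟨⟨fun v => ?_, fun c hc => (h.weights hc).1⟩, fun c hc => (h.weights hc).2⟩, ?_⟩
  · rw [← mem_dual, ← heq]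
  · obtain ⟨x, hx⟩ := card_pos.1 (show 0 < V₁.card by omega)
    obtain ⟨hxV, h0⟩ := mem_filter.1 hx
    exact ⟨x, (hV x hxV).1, fun i => by rw [h.parity x (hV x hxV).1 i 0, h0]⟩

end FA.KissingUnique

end
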