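import Fermat.Agent.Forms3.SchoenbergAll
import Fermat.Agent.Forms3.KissingTwentyFour
import Fermat.Agent.Forms3.KissingEight

/-!
# Extremal kissing configurations are spherical designs

Equality in the linear programming bound makes the Gegenbauer sums vanish; by positivity with one
point added they vanish at every point of the sphere, and give all moments up to that degree.
-/

set_option autoImplicit false

noncomputable section

open Finset

namespace FA.KissingUnique

open FA.Zonal (gegPoly gegC gegPoly_posDef)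

variable {ι : Type*} [Fintype ι] {n : ℕ}

/-- The inner product. -/
def dot (u v : Fin n → ℝ) : ℝ := ∑ l, u l * v l

theorem dot_comm' (u v : Fin n → ℝ) : dot u v = dot v u :=
  sum_congr rfl fun _ _ => mul_comm _ _

theorem dot_add_left (u v w : Fin n → ℝ) : dot (u + v) w = dot u w + dot v w := by
  simp only [dot, Pi.add_apply, add_mul, sum_add_distrib]

theorem dot_smul_left (c : ℝ) (u w : Fin n → ℝ) : dot (c • u) w = c * dot u w := by
  simp only [dot, Pi.smul_apply, smul_eq_mul, mul_assoc, mul_sum]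

theorem dot_sub_left (u v w : Fin n → ℝ) : dot (u - v) w = dot u w - dot v w := by
  simp only [dot, Pi.sub_apply, sub_mul, sum_sub_distrib]

theorem dot_neg_left (u w : Fin n → ℝ) : dot (-u) w = -dot u w := by
  simp only [dot, Pi.neg_apply, neg_mul, sum_neg_distrib]

theorem dot_add_right (u v w : Fin n → ℝ) : dot u (v + w) = dot u v + dot u w := by
  rw [dot_comm', dot_add_left, dot_comm' v, dot_comm' w]

theorem dot_sub_right (u v w : Fin n → ℝ) : dot u (v - w) = dot u v - dot u w := by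
  rw [dot_comm', dot_sub_left, dot_comm' v, dot_comm' w]

theorem dot_smul_right (c : ℝ) (u w : Fin n → ℝ) : dot u (c • w) = c * dot u w := by
  rw [dot_comm', dot_smul_left, dot_comm']

theorem dot_neg_right (u w : Fin n → ℝ) : dot u (-w) = -dot u w := by
  rw [dot_comm', dot_neg_left, dot_comm']

theorem dot_zero_left (w : Fin n → ℝ) : dot 0 w = 0 := by simp [dot]

theorem dot_zero_right (w : Fin n → ℝ) : dot w 0 = 0 := by simp [dot]

theorem dot_self_eq_zero {u : Fin n → ℝ} : dot u u = 0 ↔ u = 0 := by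
  refine ⟨fun h => funext fun l => ?_, fun h => by rw [h, dot_zero_left]⟩
  exact mul_self_eq_zero.1 ((sum_eq_zero_iff_of_nonneg fun l _ => mul_self_nonneg (u l)).1 h l
    (mem_univ l))

/-- If the sum over all pairs vanishes, so does the sum at every point of the sphere. -/
theorem sum_geg_eq_zero (hn : 0 < n) (k : ℕ) (x : ι → Fin n → ℝ) (hx : ∀ i, dot (x i) (x i) = 1)
    (h0 : ∑ a, ∑ b, gegPoly n k (dot (x a) (x b)) = 0) (y : Fin n → ℝ) (hy : dot y y = 1) :
    ∑ b, gegPoly n k (dot y (x b)) = 0 := by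
  set A := ∑ b, gegPoly n k (dot y (x b)) with hA
  set p := gegPoly n k (dot y y) with hp
  have h : ∀ e : ℝ, 0 ≤ 2 * e * A + e ^ 2 * p := fun e => by
    have h := gegPoly_posDef hn k (fun o : Option ι => o.elim e fun _ => 1)
      (fun o => o.elim y x) fun o => by cases o <;> simp [sq] <;> [exact hy; exact hx _]
    simp only [Fintype.sum_option, Option.elim_none, Option.elim_some, one_mul, mul_one,
      sum_add_distrib, ← mul_sum] at h
    change 0 ≤ e * e * p + e * ∑ a, gegPoly n k (dot (x a) y) + (e * A +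
      ∑ a, ∑ b, gegPoly n k (dot (x a) (x b))) at h
    rw [h0, sum_congr rfl fun a _ => by rw [dot_comm' (x a) y], ← hA] at h
    linarith [sq e]
  by_contra hne
  have hpos : 0 < |p| + 1 := by positivity
  have hA2 : 0 < A ^ 2 := by positivity
  have h2 := h (-A / (|p| + 1))
  have e1 : 2 * (-A / (|p| + 1)) * A + (-A / (|p| + 1)) ^ 2 * p =
      -(A ^ 2 / (|p| + 1) ^ 2) * (2 * (|p| + 1) - p) := by field_simp; ring
  rw [e1] at h2
  have h3 : 0 < A ^ 2 / (|p| + 1) ^ 2 := by positivity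
  have h4 : 0 < 2 * (|p| + 1) - p := by linarith [le_abs_self p, abs_nonneg p]
  nlinarith [mul_pos h3 h4]

/-- Powers of the inner products. -/
def moment (x : ι → Fin n → ℝ) (y : Fin n → ℝ) (k : ℕ) : ℝ := ∑ b, dot y (x b) ^ k

theorem sum_geg (x : ι → Fin n → ℝ) (y : Fin n → ℝ) (k : ℕ) :
    ∑ b, gegPoly n k (dot y (x b)) =
      ∑ i ∈ range (k / 2 + 1), gegC n k i * moment x y (k - 2 * i) := by
  simp only [gegPoly, moment, mul_sum]
  exact Finset.sum_comm

theorem moment_smul (x : ι → Fin n → ℝ) (y : Fin n → ℝ) (c : ℝ) (k : ℕ) :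
    moment x (c • y) k = c ^ k * moment x y k := by
  simp only [moment, dot_smul_left, mul_pow, mul_sum]

/-- Homogeneity: a moment known on the sphere is known everywhere. -/
theorem moment_of_sphere (x : ι → Fin n → ℝ) {k : ℕ} {μ : ℝ}
    (h : ∀ y, dot y y = 1 → moment x y (2 * k) = μ) (hk : k ≠ 0) (u : Fin n → ℝ) :
    moment x u (2 * k) = μ * dot u u ^ k := by
  rcases eq_or_ne u 0 with rfl | hu
  · simp [moment, dot_zero_left, zero_pow, hk]
  have h0 : 0 < dot u u := lt_of_le_of_ne (sum_nonneg fun l _ => mul_self_nonneg (u l))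
    (Ne.symm fun e => hu (dot_self_eq_zero.1 e))
  set r := Real.sqrt (dot u u)
  have hr : r ^ 2 = dot u u := Real.sq_sqrt h0.le
  have hr0 : r ≠ 0 := (Real.sqrt_pos.2 h0).ne'
  have hy : dot (r⁻¹ • u) (r⁻¹ • u) = 1 := by
    rw [dot_smul_left, dot_smul_right, ← hr]; field_simp
  have h2 := h _ hy
  rw [moment_smul] at h2
  rw [← h2, ← hr, ← pow_mul, inv_pow]
  field_simp

theorem moment_odd_of_sphere (x : ι → Fin n → ℝ) {k : ℕ}
    (h : ∀ y, dot y y = 1 → moment x y (2 * k + 1) = 0) (u : Fin n → ℝ) :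
    moment x u (2 * k + 1) = 0 := by
  rcases eq_or_ne u 0 with rfl | hu
  · simp [moment, dot_zero_left]
  have h0 : 0 < dot u u := lt_of_le_of_ne (sum_nonneg fun l _ => mul_self_nonneg (u l))
    (Ne.symm fun e => hu (dot_self_eq_zero.1 e))
  set r := Real.sqrt (dot u u)
  have hr : r ^ 2 = dot u u := Real.sq_sqrt h0.le
  have hr0 : r ≠ 0 := (Real.sqrt_pos.2 h0).ne'
  have hy : dot (r⁻¹ • u) (r⁻¹ • u) = 1 := by
    rw [dot_smul_left, dot_smul_right, ← hr]; field_simp
  have h2 := h _ hy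
  rw [moment_smul] at h2
  exact (mul_eq_zero.1 h2).resolve_left (pow_ne_zero _ (inv_ne_zero hr0))

/-- An extremal configuration in dimension `24`. -/
structure IsExtremalTwentyFour (x : ι → Fin 24 → ℝ) : Prop where
  unit : ∀ i, dot (x i) (x i) = 1
  sep : ∀ i j, i ≠ j → dot (x i) (x j) ≤ 1 / 2
  card : Fintype.card ι = 196560

omit [Fintype ι] in
theorem unit_sq {x : ι → Fin n → ℝ} (h : ∀ i, dot (x i) (x i) = 1) (i : ι) :
    ∑ l, x i l ^ 2 = 1 := by
  simpa [dot, sq] using h i

/-- **The design property in dimension `24`.** -/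
theorem IsExtremalTwentyFour.design {x : ι → Fin 24 → ℝ} (h : IsExtremalTwentyFour x) {k : ℕ}
    (hk : 1 ≤ k) (hk10 : k ≤ 10) (y : Fin 24 → ℝ) (hy : dot y y = 1) :
    ∑ b, gegPoly 24 k (dot y (x b)) = 0 := by
  classical
  refine sum_geg_eq_zero (by norm_num) k x h.unit ?_ y hy
  set S : ℕ → ℝ := fun k => ∑ a, ∑ b, gegPoly 24 k (dot (x a) (x b))
  have hS : ∀ k, 0 ≤ S k := fun k => by
    simpa [dot, S] using gegPoly_posDef (show 0 < 24 by norm_num) k (fun _ : ι => (1 : ℝ)) x
      (unit_sq h.unit)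
  have hc : ∀ k, 0 < Zonal.lpCoeff k := fun k => by
    unfold Zonal.lpCoeff
    split <;> norm_num
  have htot : ∑ j ∈ range 11, Zonal.lpCoeff j * S j ≤
      (196560 : ℝ) * Zonal.lpTwentyFour 1 := by
    have e : ∑ j ∈ range 11, Zonal.lpCoeff j * S j =
        ∑ a, ∑ b, Zonal.lpTwentyFour (dot (x a) (x b)) := by
      simp only [S, Zonal.lpTwentyFour_eq, mul_sum]
      rw [Finset.sum_comm]
      exact sum_congr rfl fun a _ => Finset.sum_comm
    rw [e, show (196560 : ℝ) * Zonal.lpTwentyFour 1 = ∑ _a : ι, Zonal.lpTwentyFour 1 by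
      rw [sum_const, card_univ, h.card]; simp]
    refine sum_le_sum fun a _ => ?_
    rw [← add_sum_erase univ _ (mem_univ a), h.unit a]
    refine add_le_of_nonpos_right (sum_nonpos fun b hb => Zonal.lpTwentyFour_nonpos ?_
      (h.sep a b (ne_of_mem_erase hb).symm))
    have h0 : 0 ≤ dot (x a + x b) (x a + x b) := sum_nonneg fun l _ => mul_self_nonneg _
    simp only [dot_add_left, dot_add_right, h.unit, dot_comm' (x b) (x a)] at h0
    linarith
  rw [sum_range_succ'] at htot
  have h0 : Zonal.lpCoeff 0 * S 0 = 196560 * Zonal.lpTwentyFour 1 := by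
    simp [S, Zonal.gegPoly, Zonal.gegC, Zonal.lpCoeff, h.card, Zonal.lpTwentyFour]
    norm_num
  rw [h0] at htot
  have hz := (sum_eq_zero_iff_of_nonneg fun j (_ : j ∈ range 10) =>
    mul_nonneg (hc (j + 1)).le (hS (j + 1))).1
    (le_antisymm (by linarith) (sum_nonneg fun j _ => mul_nonneg (hc (j + 1)).le (hS (j + 1))))
    (k - 1) (mem_range.2 (by omega))
  rw [show k - 1 + 1 = k by omega] at hz
  exact (mul_eq_zero.1 hz).resolve_left (hc k).ne'

/-- **The moments in dimension `24`.** -/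
theorem IsExtremalTwentyFour.moments {x : ι → Fin 24 → ℝ} (h : IsExtremalTwentyFour x)
    (u : Fin 24 → ℝ) :
    moment x u 1 = 0 ∧ moment x u 3 = 0 ∧ moment x u 5 = 0 ∧ moment x u 7 = 0 ∧
    moment x u 2 = 8190 * dot u u ∧ moment x u 4 = 945 * dot u u ^ 2 ∧
    moment x u 6 = 675 / 4 * dot u u ^ 3 ∧ moment x u 8 = 315 / 8 * dot u u ^ 4 := by
  have hk : ∀ k, 1 ≤ k → k ≤ 10 → ∀ y, dot y y = 1 →
      ∑ i ∈ range (k / 2 + 1), gegC 24 k i * moment x y (k - 2 * i) = 0 :=
    fun k h1 h2 y hy => (sum_geg x y k).symm.trans (h.design h1 h2 y hy)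
  have h0 : ∀ y, moment x y 0 = 196560 := fun y => by simp [moment, h.card]
  have key : ∀ y, dot y y = 1 → moment x y 1 = 0 ∧ moment x y 3 = 0 ∧ moment x y 5 = 0 ∧
      moment x y 7 = 0 ∧ moment x y 2 = 8190 ∧ moment x y 4 = 945 ∧ moment x y 6 = 675 / 4 ∧
      moment x y 8 = 315 / 8 := fun y hy => by
    have e1 := hk 1 le_rfl (by norm_num) y hy
    have e2 := hk 2 (by norm_num) (by norm_num) y hy
    have e3 := hk 3 (by norm_num) (by norm_num) y hy
    have e4 := hk 4 (by norm_num) (by norm_num) y hy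
    have e5 := hk 5 (by norm_num) (by norm_num) y hy
    have e6 := hk 6 (by norm_num) (by norm_num) y hy
    have e7 := hk 7 (by norm_num) (by norm_num) y hy
    have e8 := hk 8 (by norm_num) (by norm_num) y hy
    simp [Finset.sum_range_succ, gegC, h0] at e1 e2 e3 e4 e5 e6 e7 e8
    norm_num at e1 e2 e3 e4 e5 e6 e7 e8
    refine ⟨?_, ?_, ?_, ?_, ?_, ?_, ?_, ?_⟩ <;> linarith
  refine ⟨moment_odd_of_sphere x (k := 0) (fun y hy => (key y hy).1) u,
    moment_odd_of_sphere x (k := 1) (fun y hy => (key y hy).2.1) u,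
    moment_odd_of_sphere x (k := 2) (fun y hy => (key y hy).2.2.1) u,
    moment_odd_of_sphere x (k := 3) (fun y hy => (key y hy).2.2.2.1) u,
    (moment_of_sphere x (k := 1) (fun y hy => (key y hy).2.2.2.2.1) one_ne_zero u).trans
      (by rw [pow_one]),
    moment_of_sphere x (k := 2) (fun y hy => (key y hy).2.2.2.2.2.1) two_ne_zero u,
    moment_of_sphere x (k := 3) (fun y hy => (key y hy).2.2.2.2.2.2.1) three_ne_zero u,
    moment_of_sphere x (k := 4) (fun y hy => (key y hy).2.2.2.2.2.2.2) four_ne_zero u⟩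

/-- An extremal configuration in dimension eight. -/
structure IsExtremalEight (x : ι → Fin 8 → ℝ) : Prop where
  unit : ∀ i, dot (x i) (x i) = 1
  sep : ∀ i j, i ≠ j → dot (x i) (x j) ≤ 1 / 2
  card : Fintype.card ι = 240

theorem lpPoly_eq_gegPoly (t : ℝ) : Kissing.lpPoly t = 3 / 320 * gegPoly 8 0 t +
    3 / 40 * gegPoly 8 1 t + 15 / 56 * gegPoly 8 2 t + 39 / 56 * gegPoly 8 3 t +
    19 / 16 * gegPoly 8 4 t + 3 / 2 * gegPoly 8 5 t + 1 * gegPoly 8 6 t := by
  simp [Kissing.lpPoly, gegPoly, gegC, Finset.sum_range_succ]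
  ring

/-- **The design property in dimension eight.** -/
theorem IsExtremalEight.design {x : ι → Fin 8 → ℝ} (h : IsExtremalEight x) {k : ℕ}
    (hk : 1 ≤ k) (hk6 : k ≤ 6) (y : Fin 8 → ℝ) (hy : dot y y = 1) :
    ∑ b, gegPoly 8 k (dot y (x b)) = 0 := by
  classical
  refine sum_geg_eq_zero (by norm_num) k x h.unit ?_ y hy
  set S : ℕ → ℝ := fun k => ∑ a, ∑ b, gegPoly 8 k (dot (x a) (x b)) with hSdef
  have hS : ∀ k, 0 ≤ S k := fun k => by
    simpa [dot, S] using gegPoly_posDef (show 0 < 8 by norm_num) k (fun _ : ι => (1 : ℝ)) x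
      (unit_sq h.unit)
  have htot : ∑ a, ∑ b, Kissing.lpPoly (dot (x a) (x b)) ≤ 240 * (9 / 4) := by
    rw [show (240 : ℝ) * (9 / 4) = ∑ _a : ι, (9 / 4 : ℝ) by
      rw [sum_const, card_univ, h.card]; simp]
    refine sum_le_sum fun a _ => ?_
    rw [← add_sum_erase univ _ (mem_univ a), h.unit a,
      show Kissing.lpPoly 1 = 9 / 4 by norm_num [Kissing.lpPoly]]
    exact add_le_of_nonpos_right (sum_nonpos fun b hb => Kissing.lpPoly_nonpos
      (Kissing.dot_ge_neg_one (unit_sq h.unit a) (unit_sq h.unit b))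
      (h.sep a b (ne_of_mem_erase hb).symm))
  have h0 : S 0 = 240 * 240 := by
    simp [S, gegPoly, gegC, h.card]
  simp only [lpPoly_eq_gegPoly, sum_add_distrib, ← mul_sum] at htot
  change 3 / 320 * S 0 + 3 / 40 * S 1 + 15 / 56 * S 2 + 39 / 56 * S 3 + 19 / 16 * S 4 +
    3 / 2 * S 5 + 1 * S 6 ≤ _ at htot
  show S k = 0
  have := hS 1
  have := hS 2
  have := hS 3
  have := hS 4
  have := hS 5
  have := hS 6
  interval_cases k <;> linarith

/-- **The moments in dimension eight.** -/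
theorem IsExtremalEight.moments {x : ι → Fin 8 → ℝ} (h : IsExtremalEight x) (u : Fin 8 → ℝ) :
    moment x u 1 = 0 ∧ moment x u 3 = 0 ∧
    moment x u 2 = 30 * dot u u ∧ moment x u 4 = 9 * dot u u ^ 2 := by
  have hk : ∀ k, 1 ≤ k → k ≤ 6 → ∀ y, dot y y = 1 →
      ∑ i ∈ range (k / 2 + 1), gegC 8 k i * moment x y (k - 2 * i) = 0 :=
    fun k h1 h2 y hy => (sum_geg x y k).symm.trans (h.design h1 h2 y hy)
  have h0 : ∀ y, moment x y 0 = 240 := fun y => by simp [moment, h.card]
  have key : ∀ y, dot y y = 1 → moment x y 1 = 0 ∧ moment x y 3 = 0 ∧ moment x y 2 = 30 ∧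
      moment x y 4 = 9 := fun y hy => by
    have e1 := hk 1 le_rfl (by norm_num) y hy
    have e2 := hk 2 (by norm_num) (by norm_num) y hy
    have e3 := hk 3 (by norm_num) (by norm_num) y hy
    have e4 := hk 4 (by norm_num) (by norm_num) y hy
    simp [Finset.sum_range_succ, gegC, h0] at e1 e2 e3 e4
    norm_num at e1 e2 e3 e4
    refine ⟨?_, ?_, ?_, ?_⟩ <;> linarith
  exact ⟨moment_odd_of_sphere x (k := 0) (fun y hy => (key y hy).1) u,
    moment_odd_of_sphere x (k := 1) (fun y hy => (key y hy).2.1) u,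
    (moment_of_sphere x (k := 1) (fun y hy => (key y hy).2.2.1) one_ne_zero u).trans
      (by rw [pow_one]),
    moment_of_sphere x (k := 2) (fun y hy => (key y hy).2.2.2) two_ne_zero u⟩

end FA.KissingUnique

end
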