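import Fermat.Agent.KissingUnique.TwentyFour
import Fermat.Agent.Root.SummaryEightLattice

/-!
# The extremal configuration in dimension eight

In the coordinates of a frame it is the `112` vectors `±2 e_i ± 2 e_j` and the `128` sign vectors
of one parity.
-/

set_option autoImplicit false

noncomputable section

open Finset
open scoped Classical

namespace FA.KissingUnique

variable {ι : Type*} [Fintype ι] {x : ι → Fin 8 → ℝ}

theorem IsExtremalEight.values (h : IsExtremalEight x) (a b : ι) :
    ∃ m : ℤ, 2 * dot (x a) (x b) = m := by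
  rcases eq_or_ne a b with rfl | hab
  · exact ⟨2, by rw [h.unit]; norm_num⟩
  have h2 := (Kissing.kissing_le x (unit_sq h.unit) h.sep).2 h.card a b hab
  simp only [Set.mem_insert_iff, Set.mem_singleton_iff] at h2
  rcases h2 with e | e | e | e
  · exact ⟨-2, by rw [show dot (x a) (x b) = _ from e]; norm_num⟩
  · exact ⟨-1, by rw [show dot (x a) (x b) = _ from e]; norm_num⟩
  · exact ⟨0, by rw [show dot (x a) (x b) = _ from e]; norm_num⟩
  · exact ⟨1, by rw [show dot (x a) (x b) = _ from e]; norm_num⟩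

theorem IsExtremalEight.inner (h : IsExtremalEight x) {u w : Fin 8 → ℝ}
    (hu : u ∈ spanLattice x) (hw : w ∈ spanLattice x) : ∃ m : ℤ, 2 * dot u w = m :=
  int_inner x 2 h.values hu hw

theorem IsExtremalEight.min (h : IsExtremalEight x) {u : Fin 8 → ℝ} (hu : u ∈ spanLattice x)
    (hne : u ≠ 0) : 1 ≤ dot u u := by
  obtain ⟨m, hm⟩ := even_norm x 2 h.values (fun a => ⟨1, by rw [h.unit]; norm_num⟩) hu
  have h0 : 0 < dot u u := lt_of_le_of_ne (sum_nonneg fun l _ => mul_self_nonneg (u l))
    (Ne.symm fun e => hne (dot_self_eq_zero.1 e))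
  have h1 : (0 : ℤ) < m := by exact_mod_cast (show (0 : ℝ) < m by linarith)
  have h2 : (1 : ℝ) ≤ m := by exact_mod_cast h1
  linarith

theorem IsExtremalEight.exists_orth (h : IsExtremalEight x) : ∃ a b, dot (x a) (x b) = 0 := by
  obtain ⟨c⟩ : Nonempty ι := Fintype.card_pos_iff.1 (by rw [h.card]; norm_num)
  by_contra! hno
  choose a ha using fun b => h.values c b
  obtain ⟨-, -, h2, h4⟩ := h.moments (x c)
  have e2 := moment_int ha 2
  have e4 := moment_int ha 4
  rw [h2, h.unit] at e2
  rw [h4, h.unit] at e4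
  have hz : ∀ b, a b ^ 4 - 5 * a b ^ 2 + 4 = 0 := fun b => by
    have hne : a b ≠ 0 := fun e => hno c b (by have := ha b; rw [e] at this; simpa using this)
    have hab := ha b
    rcases eq_or_ne c b with rfl | hcb
    · rw [h.unit] at hab
      have : a c = 2 := by exact_mod_cast (show (a c : ℝ) = 2 by linarith)
      rw [this]; norm_num
    have hd := (Kissing.kissing_le x (unit_sq h.unit) h.sep).2 h.card c b hcb
    simp only [Set.mem_insert_iff, Set.mem_singleton_iff] at hd
    have : a b = -2 ∨ a b = -1 ∨ a b = 1 := by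
      rcases hd with e | e | e | e <;> rw [show dot (x c) (x b) = _ from e] at hab
      · exact Or.inl (by exact_mod_cast (show (a b : ℝ) = -2 by linarith))
      · exact Or.inr (Or.inl (by exact_mod_cast (show (a b : ℝ) = -1 by linarith)))
      · exact absurd (by exact_mod_cast (show (a b : ℝ) = 0 by linarith)) hne
      · exact Or.inr (Or.inr (by exact_mod_cast (show (a b : ℝ) = 1 by linarith)))
    rcases this with e | e | e <;> rw [e] <;> norm_num
  have hs : ((∑ b, (a b ^ 4 - 5 * a b ^ 2 + 4) : ℤ) : ℝ) = 0 := by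
    rw [sum_eq_zero fun b _ => hz b]; simp
  simp only [sum_add_distrib, sum_sub_distrib, ← mul_sum, sum_const, card_univ, h.card] at hs
  push_cast at hs e2 e4
  norm_num at hs e2 e4
  linarith

/-- **A frame in dimension eight.** -/
theorem IsExtremalEight.exists_frame (h : IsExtremalEight x) :
    ∃ e : Fin 8 → Fin 8 → ℝ, (∀ i, e i ∈ spanLattice x) ∧
      (∀ i j, dot (e i) (e j) = if i = j then 2 else 0) ∧
      ∀ i j, ∃ w ∈ spanLattice x, e i - e j = (2 : ℝ) • w := by
  obtain ⟨v, w, hvw⟩ := h.exists_orth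
  set u := x v + x w with hu
  have huL : u ∈ spanLattice x := add_mem (mem_span x v) (mem_span x w)
  have huu : dot u u = 2 := by
    simp only [hu, dot_add_left, dot_add_right, h.unit, hvw, dot_comm' (x w) (x v)]; norm_num
  choose a ha using fun b => h.inner huL (mem_span x b)
  have hbound : ∀ b, -2 ≤ a b ∧ a b ≤ 2 := fun b => by
    have hb : dot (x b) (x b) = 1 := h.unit b
    have h1 := h.min (sub_mem huL (mem_span x b)) fun e => by
      rw [sub_eq_zero.1 e, hb] at huu
      norm_num at huu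
    have h2 := h.min (add_mem huL (mem_span x b)) fun e => by
      rw [eq_neg_of_add_eq_zero_left e, dot_neg_left, dot_neg_right, neg_neg, hb] at huu
      norm_num at huu
    simp only [dot_sub_left, dot_sub_right, dot_add_left, dot_add_right, huu, hb,
      dot_comm' (x b) u] at h1 h2
    have := ha b
    exact ⟨by exact_mod_cast (show ((-2 : ℤ) : ℝ) ≤ (a b : ℝ) by push_cast; linarith),
      by exact_mod_cast (show (a b : ℝ) ≤ ((2 : ℤ) : ℝ) by push_cast; linarith)⟩
  have hpoly : ∀ b, a b ^ 4 + 2 * a b ^ 3 - a b ^ 2 - 2 * a b =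
      if a b = 2 then 24 else 0 := fun b => by
    obtain ⟨h1, h2⟩ := hbound b
    generalize a b = t at h1 h2 ⊢
    interval_cases t <;> norm_num
  have hsum := congrArg (fun z : ℤ => (z : ℝ)) (sum_congr (s₁ := univ) rfl fun b _ => hpoly b)
  simp only [sum_add_distrib, sum_sub_distrib, ← mul_sum, Int.cast_sub, Int.cast_add,
    Int.cast_mul, moment_int ha] at hsum
  obtain ⟨m1, m3, m2, m4⟩ := h.moments u
  have e1 : ((∑ b, a b : ℤ) : ℝ) = 2 * moment x u 1 := by
    simpa using moment_int ha 1
  rw [e1, m1, m3, m2, m4, huu, sum_ite, sum_const_zero, add_zero, sum_const, nsmul_eq_mul]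
    at hsum
  push_cast at hsum
  set B := univ.filter fun b => a b = 2 with hB
  have hBcard : B.card = 14 := by
    have : ((B.card : ℕ) : ℝ) = 14 := by linarith
    exact_mod_cast this
  set f : ι → Fin 8 → ℝ := fun b => (2 : ℝ) • x b - u with hf
  have hfa : ∀ b ∈ B, dot u (x b) = 1 := fun b hb => by
    have := ha b
    rw [(mem_filter.1 hb).2] at this
    push_cast at this
    linarith
  have hinj : Function.Injective x := fun a b e => by
    by_contra hne
    have := h.sep a b hne
    rw [e, h.unit] at this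
    norm_num at this
  set F := insert u (insert (-u) (B.image f)) with hFdef
  have hFp : ∀ y ∈ F, dot y y = 2 ∧ ∃ z ∈ spanLattice x, y = (2 : ℝ) • z + u := fun y hy => by
    simp only [hFdef, mem_insert, mem_image] at hy
    rcases hy with rfl | rfl | ⟨b, hb, rfl⟩
    · exact ⟨huu, 0, zero_mem _, by simp⟩
    · refine ⟨by rw [dot_neg_left, dot_neg_right, neg_neg, huu], -u, neg_mem huL, ?_⟩
      rw [two_smul]; abel
    · refine ⟨?_, x b - u, sub_mem (mem_span x b) huL, by simp only [hf, smul_sub, two_smul ℝ u]; abel⟩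
      simp only [hf, dot_sub_left, dot_sub_right, dot_smul_left, dot_smul_right, h.unit, huu,
        dot_comm' (x b) u, hfa b hb]
      norm_num
  have hdiff : ∀ y ∈ F, ∀ y' ∈ F, ∃ z ∈ spanLattice x, y - y' = (2 : ℝ) • z :=
    fun y hy y' hy' => by
    obtain ⟨-, z, hz, rfl⟩ := hFp y hy
    obtain ⟨-, z', hz', rfl⟩ := hFp y' hy'
    exact ⟨z - z', sub_mem hz hz', by rw [smul_sub]; abel⟩
  have hFL : ∀ y ∈ F, y ∈ spanLattice x := fun y hy => by
    obtain ⟨-, z, hz, rfl⟩ := hFp y hy
    rw [two_smul]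
    exact add_mem (add_mem hz hz) huL
  have hpair : ∀ y ∈ F, ∀ y' ∈ F, y = y' ∨ y = -y' ∨ dot y y' = 0 := fun y hy y' hy' => by
    obtain ⟨z, hz, e⟩ := hdiff y hy y' hy'
    rcases eq_or_ne z 0 with rfl | hz0
    · exact Or.inl (sub_eq_zero.1 (by simpa using e))
    rcases eq_or_ne (z + y') 0 with hz1 | hz1
    · refine Or.inr (Or.inl ?_)
      rw [eq_neg_of_add_eq_zero_left hz1, two_smul] at e
      rw [sub_eq_iff_eq_add.1 e]; abel
    refine Or.inr (Or.inr ?_)
    have hy1 := (hFp y hy).1
    have hy2 := (hFp y' hy').1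
    have m1 := h.min hz hz0
    have m2 := h.min (add_mem hz (hFL y' hy')) hz1
    have e' : y + y' = (2 : ℝ) • (z + y') := by
      rw [smul_add, ← e, two_smul]; abel
    have n1 := congrArg (fun v => dot v v) e
    have n2 := congrArg (fun v => dot v v) e'
    simp only [dot_sub_left, dot_sub_right, dot_smul_left, dot_smul_right, hy1, hy2,
      dot_comm' y' y] at n1
    rw [dot_smul_left, dot_smul_right] at n2
    simp only [dot_add_left y y', dot_add_right y y y', dot_add_right y' y y', hy1, hy2,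
      dot_comm' y' y] at n2
    linarith
  have hFcard : 16 ≤ F.card := by
    have hfinj : Set.InjOn f B := fun a _ b _ e => hinj (by
      have : (2 : ℝ) • x a = (2 : ℝ) • x b := sub_left_injective e
      exact smul_right_injective _ (two_ne_zero (α := ℝ)) this)
    have hdot : ∀ b ∈ B, dot (f b) u = 0 := fun b hb => by
      simp only [hf, dot_sub_left, dot_smul_left, huu, dot_comm' (x b) u, hfa b hb]; norm_num
    have hu1 : u ∉ insert (-u) (B.image f) := by
      simp only [mem_insert, mem_image, not_or, not_exists, not_and]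
      refine ⟨fun e => ?_, fun b hb e => ?_⟩
      · have := congrArg (fun v => dot v u) e
        simp only [dot_neg_left, huu] at this
        norm_num at this
      · have := hdot b hb
        rw [e, huu] at this
        norm_num at this
    have hu2 : -u ∉ B.image f := by
      simp only [mem_image, not_exists, not_and]
      intro b hb e
      have := hdot b hb
      rw [e, dot_neg_left, huu] at this
      norm_num at this
    rw [hFdef, card_insert_of_notMem hu1, card_insert_of_notMem hu2, card_image_of_injOn hfinj,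
      hBcard]
  obtain ⟨e, he, horth⟩ :=
    exists_orth_frame F 2 two_ne_zero (fun y hy => (hFp y hy).1) hpair hFcard
  exact ⟨e, fun i => hFL _ (he i), horth, fun i j => hdiff _ (he i) _ (he j)⟩

/-- The standard configuration. -/
def stdEight : Set (Fin 8 → ℤ) :=
  {z | ∑ i, z i * z i = 8 ∧ (∀ i, z i % 2 = z 0 % 2) ∧ (4 : ℤ) ∣ ∑ i, z i}

theorem even_shape {z : Fin 8 → ℤ} (h : ∑ i, z i * z i = 8) (he : ∀ i, z i % 2 = 0) :
    ∃ a b, a < b ∧ (z a = 2 ∨ z a = -2) ∧ (z b = 2 ∨ z b = -2) ∧
      ∀ i, i ≠ a → i ≠ b → z i = 0 := by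
  have hz : ∀ i, z i = 2 * (z i / 2) := fun i => by have := he i; omega
  have hsum : ∑ i, z i / 2 * (z i / 2) = 2 := by
    rw [sum_congr rfl fun i _ => show z i * z i = 4 * (z i / 2 * (z i / 2)) by
      conv_lhs => rw [hz i]
      ring, ← mul_sum] at h
    omega
  have hone : ∀ i, z i / 2 * (z i / 2) ≤ 1 := fun i => by
    by_contra hlt
    have hle := single_le_sum (f := fun i => z i / 2 * (z i / 2))
      (fun i _ => mul_self_nonneg _) (mem_univ i)
    rw [hsum] at hle
    have h2 : z i / 2 * (z i / 2) = 2 := by omega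
    rcases le_or_gt (z i / 2) (-2) with h' | h'
    · nlinarith
    rcases le_or_gt 2 (z i / 2) with h'' | h''
    · nlinarith
    interval_cases z i / 2 <;> omega
  set T := univ.filter fun i => z i ≠ 0 with hT
  have hTcard : T.card = 2 := by
    have : (T.card : ℤ) = 2 := by
      rw [← hsum, hT, card_filter]
      push_cast
      refine sum_congr rfl fun i _ => ?_
      have := hz i
      rcases int_sq_le_one (hone i) with e | e | e <;> rw [e] <;> simp <;> omega
    exact_mod_cast this
  obtain ⟨a, b, hab, hTab⟩ := card_eq_two.1 hTcard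
  have hval : ∀ i ∈ T, z i = 2 ∨ z i = -2 := fun i hi => by
    have := hz i
    have h0 := (mem_filter.1 hi).2
    rcases int_sq_le_one (hone i) with e | e | e <;> omega
  have hx0 : ∀ i, i ≠ a → i ≠ b → z i = 0 := fun i h1 h2 => by
    by_contra h0
    have : i ∈ T := mem_filter.2 ⟨mem_univ i, h0⟩
    rw [hTab] at this
    simp [h1, h2] at this
  have ha : z a = 2 ∨ z a = -2 := hval a (by rw [hTab]; simp)
  have hb : z b = 2 ∨ z b = -2 := hval b (by rw [hTab]; simp)
  rcases lt_or_gt_of_ne hab with hlt | hlt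
  · exact ⟨a, b, hlt, ha, hb, hx0⟩
  · exact ⟨b, a, hlt, hb, ha, fun i h1 h2 => hx0 i h2 h1⟩

theorem odd_shape {z : Fin 8 → ℤ} (h : ∑ i, z i * z i = 8) (he : ∀ i, z i % 2 = 1) (i : Fin 8) :
    z i = 1 ∨ z i = -1 := by
  have hone : ∀ j, 1 ≤ z j * z j := fun j => by
    have := he j
    have : z j ≠ 0 := by omega
    nlinarith [Int.one_le_abs this, abs_mul_abs_self (z j)]
  have h7 : (7 : ℤ) ≤ ∑ j ∈ univ.erase i, z j * z j := by
    have := sum_le_sum fun j (_ : j ∈ (univ.erase i : Finset (Fin 8))) => hone j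
    simp only [sum_const, card_erase_of_mem (mem_univ i), card_univ, Fintype.card_fin,
      nsmul_eq_mul, mul_one] at this
    push_cast at this
    exact this
  have h1 := add_sum_erase univ (fun j => z j * z j) (mem_univ i)
  have h3 := hone i
  have h2 : z i * z i = 1 * 1 := by linarith
  exact mul_self_eq_mul_self_iff.1 h2

theorem card_le_of_subset_std (V : Finset (Fin 8 → ℤ)) (hV : ∀ z ∈ V, z ∈ stdEight) :
    V.card ≤ 240 := by
  rw [← card_filter_add_card_filter_not (s := V) fun z => z 0 % 2 = 1]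
  refine (add_le_add (a := _) (b := 128) (d := 112) ?_ ?_).trans le_rfl
  · let g : (Fin 8 → ℤ) → Fin 7 → Bool := fun z i => decide (z i.succ = 1)
    refine (card_le_card_of_injOn (t := (univ : Finset (Fin 7 → Bool))) g
      (fun _ _ => mem_univ _) ?_).trans (le_of_eq (by simp))
    intro z hz w hw e
    obtain ⟨hzV, hz0⟩ := mem_filter.1 (mem_coe.1 hz)
    obtain ⟨hwV, hw0⟩ := mem_filter.1 (mem_coe.1 hw)
    obtain ⟨hz8, hzp, hzs⟩ := hV z hzV
    obtain ⟨hw8, hwp, hws⟩ := hV w hwV
    have hsz := odd_shape hz8 fun i => (hzp i).trans hz0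
    have hsw := odd_shape hw8 fun i => (hwp i).trans hw0
    have hsucc : ∀ i : Fin 7, z i.succ = w i.succ := fun i => by
      have := congrFun e i
      simp only [g, decide_eq_decide] at this
      rcases hsz i.succ with a | a <;> rcases hsw i.succ with b | b <;> omega
    rw [Fin.sum_univ_succ] at hzs hws
    rw [sum_congr rfl fun i _ => hsucc i] at hzs
    funext i
    refine Fin.cases ?_ hsucc i
    rcases hsz 0 with a | a <;> rcases hsw 0 with b | b <;> omega
  · let S : Finset ((Fin 8 × Bool) × Fin 8 × Bool) := univ.filter fun q => q.1.1 < q.2.1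
    let g : (Fin 8 × Bool) × Fin 8 × Bool → Fin 8 → ℤ := fun q =>
      Pi.single q.1.1 (if q.1.2 then 2 else -2) + Pi.single q.2.1 (if q.2.2 then 2 else -2)
    refine (card_le_card (t := S.image g) fun z hz => ?_).trans
      (card_image_le.trans (le_of_eq ?_))
    · obtain ⟨hzV, hz0⟩ := mem_filter.1 hz
      obtain ⟨hz8, hzp, -⟩ := hV z hzV
      obtain ⟨a, b, hlt, ha, hb, hx0⟩ := even_shape hz8 fun i => by have := hzp i; omega
      refine mem_image.2 ⟨((a, decide (z a = 2)), b, decide (z b = 2)), by simp [S, hlt],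
        funext fun i => ?_⟩
      have ha' : (if decide (z a = 2) then (2 : ℤ) else -2) = z a := by
        rcases ha with e | e <;> simp [e]
      have hb' : (if decide (z b = 2) then (2 : ℤ) else -2) = z b := by
        rcases hb with e | e <;> simp [e]
      simp only [g, ha', hb', Pi.add_apply]
      rcases eq_or_ne i a with rfl | hia
      · simp [hlt.ne]
      rcases eq_or_ne i b with rfl | hib
      · simp [hia]
      simp [hia, hib, hx0 i hia hib]
    · have : (univ.filter fun p : Fin 8 × Fin 8 => p.1 < p.2).card = 28 := by decide +kernel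
      rw [show S = ((univ.filter fun p : Fin 8 × Fin 8 => p.1 < p.2) ×ˢ
          (univ : Finset (Bool × Bool))).map
            ⟨fun q => ((q.1.1, q.2.1), q.1.2, q.2.2), fun u v e => by
              simp_all [Prod.ext_iff]⟩ by
        ext ⟨⟨i, bi⟩, j, bj⟩
        simp [S], card_map, card_product, this]
      rfl

/-- **Uniqueness in dimension eight.** -/
theorem IsExtremalEight.unique (h : IsExtremalEight x) :
    ∃ A : (Fin 8 → ℝ) →ₗ[ℝ] (Fin 8 → ℝ), (∀ u w, dot (A u) (A w) = dot u w) ∧
      A '' Set.range x = {y | ∃ z ∈ stdEight, y = fun i => (z i : ℝ) / Real.sqrt 8} := by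
  obtain ⟨e, heL, he, hdiff⟩ := h.exists_frame
  have hcomp := sum_dot_mul_dot two_ne_zero he
  let Λ : AddSubgroup (Fin 8 → ℤ) :=
    { carrier := {z | ∃ u ∈ spanLattice x, ∀ i, (z i : ℝ) = 2 * dot u (e i)}
      add_mem' := by
        rintro a b ⟨u, hu, ha⟩ ⟨w, hw, hb⟩
        exact ⟨u + w, add_mem hu hw, fun i => by simp [dot_add_left, ha, hb, mul_add]⟩
      zero_mem' := ⟨0, zero_mem _, fun i => by simp [dot_zero_left]⟩
      neg_mem' := by
        rintro a ⟨u, hu, ha⟩
        exact ⟨-u, neg_mem hu, fun i => by simp [dot_neg_left, ha]⟩ }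
  have hdotZ : ∀ {a b : Fin 8 → ℤ} {u w : Fin 8 → ℝ}, (∀ i, (a i : ℝ) = 2 * dot u (e i)) →
      (∀ i, (b i : ℝ) = 2 * dot w (e i)) → ((∑ i, a i * b i : ℤ) : ℝ) = 8 * dot u w := by
    intro a b u w ha hb
    push_cast
    simp only [ha, hb]
    rw [sum_congr rfl fun i _ => mul_mul_mul_comm (2 : ℝ) _ 2 _, ← mul_sum, hcomp]
    ring
  have hax : ∀ j, Pi.single j (4 : ℤ) ∈ Λ := fun j => ⟨e j, heL j, fun i => by
    rw [he]
    rcases eq_or_ne i j with rfl | hij
    · norm_num
    · rw [Pi.single_eq_of_ne hij, if_neg hij.symm]; simp⟩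
  have hpairs : ∀ j, (2 : ℤ) • (Pi.single j 1 - Pi.single 0 1 : Fin 8 → ℤ) ∈ Λ := fun j => by
    obtain ⟨w, hw, hjw⟩ := hdiff j 0
    refine ⟨w, hw, fun i => ?_⟩
    have h2 := congrArg (fun v => dot v (e i)) hjw
    simp only [dot_sub_left, he, dot_smul_left] at h2
    simp only [Pi.smul_apply, Pi.sub_apply, smul_eq_mul, Pi.single_apply]
    push_cast
    rw [← h2]
    simp only [eq_comm (a := i)]
    split_ifs <;> norm_num
  have htwo : ∀ z : Fin 8 → ℤ, (2 : ℤ) ∣ ∑ i, z i → (2 : ℤ) • z ∈ Λ := fun z hz => by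
    obtain ⟨k, hk⟩ := hz
    rw [show (2 : ℤ) • z = ∑ j, z j • ((2 : ℤ) • (Pi.single j 1 - Pi.single 0 1 : Fin 8 → ℤ)) +
        k • Pi.single 0 4 from funext fun i => by
      simp only [Pi.add_apply, Finset.sum_apply, Pi.smul_apply, Pi.sub_apply, smul_eq_mul,
        Pi.single_apply, mul_sub, sum_sub_distrib, mul_ite, mul_one, mul_zero, sum_ite_eq,
        mem_univ, if_true]
      by_cases hi : i = 0
      · subst hi
        simp only [if_true, ← sum_mul, hk]
        ring
      · simp only [if_neg hi, sum_const_zero]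
        ring]
    exact add_mem (sum_mem fun j _ => zsmul_mem (hpairs j) _) (zsmul_mem (hax 0) _)
  have hnot : (Pi.single 0 2 : Fin 8 → ℤ) ∉ Λ := fun ⟨u, hu, hz⟩ => by
    have h1 := hdotZ hz hz
    have hu0 : u ≠ 0 := fun e0 => by
      have := hz 0
      rw [e0, dot_zero_left] at this
      norm_num at this
    have := h.min hu hu0
    have e4 : (∑ i, (Pi.single 0 2 : Fin 8 → ℤ) i * (Pi.single 0 2 : Fin 8 → ℤ) i) = 4 := by
      simp [Pi.single_apply]
    rw [e4] at h1
    push_cast at h1
    linarith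
  choose ζ hζ using fun b => show ∃ z : Fin 8 → ℤ, ∀ i, (z i : ℝ) = 2 * dot (x b) (e i) by
    choose z hz using fun i => h.inner (mem_span x b) (heL i)
    exact ⟨z, fun i => (hz i).symm⟩
  have hmem : ∀ b, ζ b ∈ Λ := fun b => ⟨x b, mem_span x b, hζ b⟩
  have hnorm : ∀ b, ∑ i, ζ b i * ζ b i = 8 := fun b => by
    exact_mod_cast (show ((∑ i, ζ b i * ζ b i : ℤ) : ℝ) = ((8 : ℤ) : ℝ) by
      rw [hdotZ (hζ b) (hζ b), h.unit]; norm_num)
  have hpar : ∀ b i, ζ b i % 2 = ζ b 0 % 2 := fun b i => by
    obtain ⟨w, hw, hij⟩ := hdiff i 0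
    obtain ⟨m, hm⟩ := h.inner (mem_span x b) hw
    have h2 := congrArg (fun v => dot (x b) v) hij
    simp only [dot_sub_right, dot_smul_right] at h2
    have : ((ζ b i - ζ b 0 : ℤ) : ℝ) = ((2 * m : ℤ) : ℝ) := by
      push_cast
      rw [hζ, hζ, ← hm]
      linarith
    have : ζ b i - ζ b 0 = 2 * m := by exact_mod_cast this
    omega
  -- one class of the sums of the odd vectors
  have hsum2 : ∀ b c, ζ b 0 % 2 = 1 → ζ c 0 % 2 = 1 →
      (4 : ℤ) ∣ ∑ i, ζ b i - ∑ i, ζ c i := fun b c hb hc => by
    set z := fun i => (ζ b i - ζ c i) / 2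
    have hz : ∀ i, ζ b i - ζ c i = 2 * z i := fun i => by
      have := hpar b i
      have := hpar c i
      simp only [z]
      omega
    have hs : ∑ i, ζ b i - ∑ i, ζ c i = 2 * ∑ i, z i := by
      rw [← sum_sub_distrib, mul_sum]
      exact sum_congr rfl fun i _ => hz i
    rw [hs]
    rcases Int.emod_two_eq_zero_or_one (∑ i, z i) with h0 | h0
    · omega
    · refine absurd ?_ hnot
      have h1 := htwo (z - Pi.single 0 1) (by
        simp only [Pi.sub_apply, sum_sub_distrib, sum_pi_single', mem_univ, if_true]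
        omega)
      rw [show (Pi.single 0 2 : Fin 8 → ℤ) =
          (ζ b - ζ c) - (2 : ℤ) • (z - Pi.single 0 1) from funext fun i => by
        simp only [Pi.sub_apply, Pi.smul_apply, smul_eq_mul, hz i, Pi.single_apply]
        split_ifs <;> ring]
      exact Λ.sub_mem (Λ.sub_mem (hmem b) (hmem c)) h1
  obtain ⟨s, hs, hs4⟩ : ∃ s : Fin 8 → ℤ, (∀ i, s i = 1 ∨ s i = -1) ∧
      ∀ b, ζ b 0 % 2 = 1 → (4 : ℤ) ∣ ∑ i, s i * ζ b i := by
    by_cases hex : ∃ c, ζ c 0 % 2 = 1 ∧ ¬(4 : ℤ) ∣ ∑ i, ζ c i
    · obtain ⟨c, hc, hc4⟩ := hex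
      refine ⟨fun i => if i = 0 then -1 else 1, fun i => by by_cases hi : i = 0 <;> simp [hi],
        fun b hb => ?_⟩
      have h1 := hsum2 b c hb hc
      have h2 : (2 : ℤ) ∣ ∑ i, ζ c i := by
        rw [show (∑ i, ζ c i) = ∑ i, (ζ c i - ζ c 0) + 8 * ζ c 0 by
          simp [sum_sub_distrib]]
        exact dvd_add (dvd_sum fun i _ => by have := hpar c i; omega) ⟨4 * ζ c 0, by ring⟩
      rw [show (∑ i, (if i = 0 then (-1 : ℤ) else 1) * ζ b i) = ∑ i, ζ b i - 2 * ζ b 0 by
        rw [sum_congr rfl fun i _ => show (if i = 0 then (-1 : ℤ) else 1) * ζ b i =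
          ζ b i - if i = 0 then 2 * ζ b i else 0 by split_ifs <;> ring]
        simp [sum_sub_distrib]]
      omega
    · push Not at hex
      exact ⟨fun _ => 1, fun _ => Or.inl rfl, fun b hb => by simpa using hex b hb⟩
  have hs1 : ∀ i, (s i : ℝ) * s i = 1 := fun i => by
    rcases hs i with e' | e' <;> rw [e'] <;> norm_num
  let κ : ι → Fin 8 → ℤ := fun b i => s i * ζ b i
  have hκ : ∀ b, κ b ∈ stdEight := fun b => by
    have hp : ∀ i, s i * ζ b i % 2 = ζ b i % 2 := fun i => by
      rcases hs i with e' | e' <;> rw [e'] <;> omega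
    have hn : ∑ i, κ b i * κ b i = 8 := by
      rw [← hnorm b]
      exact sum_congr rfl fun i _ => by
        rcases hs i with e' | e' <;> simp only [κ, e'] <;> ring
    refine ⟨hn, fun i => ?_, ?_⟩
    · show s i * ζ b i % 2 = s 0 * ζ b 0 % 2
      rw [hp, hp, hpar]
    · rcases Int.emod_two_eq_zero_or_one (ζ b 0) with h0 | h0
      · obtain ⟨a, c, hac, ha, hc, hx0⟩ := even_shape hn fun i => by
          show s i * ζ b i % 2 = 0
          rw [hp, hpar, h0]
        rw [Finset.sum_eq_add (s := univ) a c hac.ne (fun i _ hi => hx0 i hi.1 hi.2)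
          (fun hh => absurd (mem_univ a) hh) (fun hh => absurd (mem_univ c) hh)]
        rcases ha with ha | ha <;> rcases hc with hc | hc <;> rw [ha, hc] <;> norm_num
      · exact hs4 b h0
  have hκinj : Function.Injective κ := fun a b hab => by
    by_contra hne
    have hab' : ζ a = ζ b := funext fun i => by
      have := congrFun hab i
      rcases hs i with e' | e' <;> simp only [κ, e'] at this <;> linarith
    have h1 := hdotZ (hζ a) (hζ b)
    rw [← hab', hdotZ (hζ a) (hζ a), h.unit] at h1
    have := h.sep a b hne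
    linarith
  let A : (Fin 8 → ℝ) →ₗ[ℝ] (Fin 8 → ℝ) :=
    { toFun := fun u i => (s i : ℝ) * (2 * dot u (e i)) / Real.sqrt 8
      map_add' := fun u w => funext fun i => by simp [dot_add_left, mul_add, add_div]
      map_smul' := fun c u => funext fun i => by
        simp only [dot_smul_left, Pi.smul_apply, smul_eq_mul, RingHom.id_apply]; ring }
  have hsq : Real.sqrt 8 * Real.sqrt 8 = 8 := Real.mul_self_sqrt (by norm_num)
  have hAx : ∀ b, A (x b) = fun i => ((κ b i : ℤ) : ℝ) / Real.sqrt 8 := fun b =>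
    funext fun i => by
      show (s i : ℝ) * _ / _ = _
      rw [← hζ]
      simp only [κ]
      push_cast
      rfl
  refine ⟨A, fun u w => ?_, ?_⟩
  · calc dot (A u) (A w)
        = ∑ i, 1 / 2 * (dot u (e i) * dot w (e i)) := sum_congr rfl fun i _ => by
          show (s i : ℝ) * _ / _ * ((s i : ℝ) * _ / _) = _
          rw [div_mul_div_comm, mul_mul_mul_comm, hs1, hsq]
          ring
      _ = dot u w := by rw [← mul_sum, hcomp]; ring
  ext y
  constructor
  · rintro ⟨_, ⟨b, rfl⟩, rfl⟩
    exact ⟨κ b, hκ b, hAx b⟩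
  · rintro ⟨z, hz, rfl⟩
    obtain ⟨b, -, rfl⟩ : ∃ b ∈ (univ : Finset ι), κ b = z := by
      rw [← mem_image]
      by_contra hne
      have h1 := card_le_of_subset_std (insert z (univ.image κ)) fun w hw => by
        rcases mem_insert.1 hw with rfl | hw
        · exact hz
        · obtain ⟨b, -, rfl⟩ := mem_image.1 hw
          exact hκ b
      rw [card_insert_of_notMem hne, card_image_of_injective _ hκinj, card_univ, h.card] at h1
      omega
    exact ⟨x b, ⟨b, rfl⟩, hAx b⟩

/-- The roots of `E₈`, halved. -/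
def rootPoint (r : {y : Fin 8 → ℤ // ∑ i, ∑ j, y i * EightLattice.gram i j * y j = 2}) :
    Fin 8 → ℝ :=
  fun l => (EightLattice.embed r.1 l : ℝ) / 2

theorem rootPoint_extremal
    [Fintype {y : Fin 8 → ℤ // ∑ i, ∑ j, y i * EightLattice.gram i j * y j = 2}] :
    IsExtremalEight rootPoint := by
  have hcard : Nat.card {y : Fin 8 → ℤ // ∑ i, ∑ j, y i * EightLattice.gram i j * y j = 2} =
      240 := by
    refine Eq.trans ?_ ((Summary.e8_representations 1 one_pos).trans (by simp))
    exact Nat.card_congr (Equiv.subtypeEquivRight fun y => by norm_num; rfl)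
  rw [Nat.card_eq_fintype_card] at hcard
  refine ⟨fun r => ?_, fun r r' hne => (Kissing.roots_separated r.2 r'.2 fun e => hne
    (Subtype.ext e)).2, hcard⟩
  obtain ⟨r', hr'⟩ := Fintype.exists_ne_of_one_lt_card (by rw [hcard]; norm_num) r
  have := (Kissing.roots_separated r.2 r'.2 fun e => hr'.symm (Subtype.ext e)).1
  simpa [dot, rootPoint, sq] using this

end FA.KissingUnique

end
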