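import Fermat.Agent.KissingUnique.Design

/-!
# The lattice of an extremal configuration and its frames

Scaled, the span is an even lattice; the moments forbid short vectors in dimension `24` and count
the vectors completing `u = v + w`, `v ⊥ w`, to a frame.
-/

set_option autoImplicit false

noncomputable section

open Finset
open scoped Classical

namespace FA.KissingUnique

variable {ι : Type*} {n : ℕ}

/-- The integer span. -/
def spanLattice (x : ι → Fin n → ℝ) : AddSubgroup (Fin n → ℝ) :=
  AddSubgroup.closure (Set.range x)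

theorem mem_span (x : ι → Fin n → ℝ) (i : ι) : x i ∈ spanLattice x :=
  AddSubgroup.subset_closure ⟨i, rfl⟩

theorem int_inner (x : ι → Fin n → ℝ) (s : ℝ) (h : ∀ a b, ∃ m : ℤ, s * dot (x a) (x b) = m)
    {u w : Fin n → ℝ} (hu : u ∈ spanLattice x) (hw : w ∈ spanLattice x) :
    ∃ m : ℤ, s * dot u w = m := by
  induction hu using AddSubgroup.closure_induction with
  | mem y hy =>
    obtain ⟨a, rfl⟩ := hy
    induction hw using AddSubgroup.closure_induction with
    | mem y hy => obtain ⟨b, rfl⟩ := hy; exact h a b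
    | zero => exact ⟨0, by rw [dot_zero_right]; simp⟩
    | add y z _ _ hy hz =>
      obtain ⟨m, hm⟩ := hy
      obtain ⟨k, hk⟩ := hz
      exact ⟨m + k, by rw [dot_add_right, mul_add, hm, hk]; push_cast; rfl⟩
    | neg y _ hy => obtain ⟨m, hm⟩ := hy; exact ⟨-m, by rw [dot_neg_right, mul_neg, hm]; simp⟩
  | zero => exact ⟨0, by rw [dot_zero_left]; simp⟩
  | add y z _ _ hy hz =>
    obtain ⟨m, hm⟩ := hy
    obtain ⟨k, hk⟩ := hz
    exact ⟨m + k, by rw [dot_add_left, mul_add, hm, hk]; push_cast; rfl⟩
  | neg y _ hy => obtain ⟨m, hm⟩ := hy; exact ⟨-m, by rw [dot_neg_left, mul_neg, hm]; simp⟩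

theorem even_norm (x : ι → Fin n → ℝ) (s : ℝ) (h : ∀ a b, ∃ m : ℤ, s * dot (x a) (x b) = m)
    (hd : ∀ a, ∃ m : ℤ, s * dot (x a) (x a) = 2 * m) {u : Fin n → ℝ} (hu : u ∈ spanLattice x) :
    ∃ m : ℤ, s * dot u u = 2 * m := by
  induction hu using AddSubgroup.closure_induction with
  | mem y hy => obtain ⟨a, rfl⟩ := hy; exact hd a
  | zero => exact ⟨0, by rw [dot_zero_left]; simp⟩
  | add y z hy hz iy iz =>
    obtain ⟨m, hm⟩ := iy
    obtain ⟨k, hk⟩ := iz
    obtain ⟨j, hj⟩ := int_inner x s h hy hz
    refine ⟨m + k + j, ?_⟩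
    rw [dot_add_left, dot_add_right, dot_add_right, dot_comm' z y]
    push_cast
    linarith
  | neg y _ iy =>
    obtain ⟨m, hm⟩ := iy
    exact ⟨m, by rw [dot_neg_left, dot_neg_right, neg_neg, hm]⟩

/-- Twice as many vectors as the dimension, equal up to sign or orthogonal, make a frame. -/
theorem exists_orth_frame (F : Finset (Fin n → ℝ)) (N : ℝ) (hN : N ≠ 0)
    (hF : ∀ u ∈ F, dot u u = N)
    (hpair : ∀ u ∈ F, ∀ w ∈ F, u = w ∨ u = -w ∨ dot u w = 0) (hcard : 2 * n ≤ F.card) :
    ∃ e : Fin n → Fin n → ℝ, (∀ i, e i ∈ F) ∧ ∀ i j, dot (e i) (e j) = if i = j then N else 0 := by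
  obtain ⟨T, hT, hmax⟩ := exists_max_image (F.powerset.filter fun T : Finset (Fin n → ℝ) =>
    (T : Set (Fin n → ℝ)).Pairwise fun u w => dot u w = 0) card ⟨∅, by simp⟩
  obtain ⟨hTF, horth⟩ := mem_filter.1 hT
  rw [mem_powerset] at hTF
  have hcover : F ⊆ T ∪ T.image (fun v => -v) := fun u hu => by
    by_contra hnot
    simp only [mem_union, mem_image, not_or, not_exists, not_and] at hnot
    have hperp : ∀ w ∈ T, dot u w = 0 := fun w hw => by
      rcases hpair u hu w (hTF hw) with h | h | h
      · exact absurd (h ▸ hw) hnot.1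
      · exact absurd h.symm (hnot.2 w hw)
      · exact h
    have hins : insert u T ∈ F.powerset.filter fun T : Finset (Fin n → ℝ) =>
        (T : Set (Fin n → ℝ)).Pairwise fun u w => dot u w = 0 := by
      refine mem_filter.2 ⟨mem_powerset.2 (insert_subset hu hTF), ?_⟩
      rw [coe_insert, Set.pairwise_insert]
      exact ⟨horth, fun b hb _ => ⟨hperp b hb, (dot_comm' b u).trans (hperp b hb)⟩⟩
    have := hmax _ hins
    rw [card_insert_of_notMem hnot.1] at this
    omega
  have hlow : n ≤ T.card := by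
    have := (card_le_card hcover).trans ((card_union_le _ _).trans
      (Nat.add_le_add_left card_image_le _))
    omega
  have hhigh : T.card ≤ n := by
    have hli : LinearIndependent ℝ fun v : T => (v : Fin n → ℝ) := by
      refine Fintype.linearIndependent_iff.2 fun g hg w => ?_
      have h := congrArg (fun z => dot z (w : Fin n → ℝ)) hg
      simp only [dot, Finset.sum_apply, Pi.smul_apply, smul_eq_mul, Finset.sum_mul, Pi.zero_apply,
        zero_mul, sum_const_zero] at h
      rw [Finset.sum_comm] at h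
      simp only [mul_assoc, ← Finset.mul_sum] at h
      change ∑ v : T, g v * dot (v : Fin n → ℝ) w = 0 at h
      rw [Fintype.sum_eq_single w fun v hv => by
        rw [horth v.2 w.2 fun e => hv (Subtype.ext e), mul_zero], hF _ (hTF w.2)] at h
      exact (mul_eq_zero.1 h).resolve_right hN
    simpa using hli.fintype_card_le_finrank
  let e : Fin n ≃ T := (Fintype.equivFinOfCardEq (by rw [Fintype.card_coe]; omega)).symm
  refine ⟨fun i => e i, fun i => hTF (e i).2, fun i j => ?_⟩
  split_ifs with hij
  · subst hij; exact hF _ (hTF (e i).2)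
  · exact horth (e i).2 (e j).2 fun h => hij (e.injective (Subtype.ext h))

variable [Fintype ι]

theorem moment_int {x : ι → Fin n → ℝ} {s : ℝ} {u : Fin n → ℝ} {a : ι → ℤ}
    (ha : ∀ b, s * dot u (x b) = a b) (k : ℕ) :
    ((∑ b, a b ^ k : ℤ) : ℝ) = s ^ k * moment x u k := by
  rw [← moment_smul, moment, Int.cast_sum]
  exact sum_congr rfl fun b _ => by rw [dot_smul_left, ha, Int.cast_pow]

section TwentyFour

variable {x : ι → Fin 24 → ℝ}

theorem IsExtremalTwentyFour.values (h : IsExtremalTwentyFour x) (a b : ι) :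
    ∃ m : ℤ, 4 * dot (x a) (x b) = m := by
  rcases eq_or_ne a b with rfl | hab
  · exact ⟨4, by rw [h.unit]; norm_num⟩
  have h2 := (Zonal.kissing_le_twentyFour x (unit_sq h.unit) h.sep).2 h.card a b hab
  simp only [Set.mem_insert_iff, Set.mem_singleton_iff] at h2
  rcases h2 with e | e | e | e | e | e
  · exact ⟨-4, by rw [show dot (x a) (x b) = _ from e]; norm_num⟩
  · exact ⟨-2, by rw [show dot (x a) (x b) = _ from e]; norm_num⟩
  · exact ⟨-1, by rw [show dot (x a) (x b) = _ from e]; norm_num⟩
  · exact ⟨0, by rw [show dot (x a) (x b) = _ from e]; norm_num⟩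
  · exact ⟨1, by rw [show dot (x a) (x b) = _ from e]; norm_num⟩
  · exact ⟨2, by rw [show dot (x a) (x b) = _ from e]; norm_num⟩

theorem IsExtremalTwentyFour.inner (h : IsExtremalTwentyFour x) {u w : Fin 24 → ℝ}
    (hu : u ∈ spanLattice x) (hw : w ∈ spanLattice x) : ∃ m : ℤ, 4 * dot u w = m :=
  int_inner x 4 h.values hu hw

theorem IsExtremalTwentyFour.even (h : IsExtremalTwentyFour x) {u : Fin 24 → ℝ}
    (hu : u ∈ spanLattice x) : ∃ m : ℤ, 4 * dot u u = 2 * m :=
  even_norm x 4 h.values (fun a => ⟨2, by rw [h.unit]; norm_num⟩) hu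

/-- **No roots.** -/
theorem IsExtremalTwentyFour.min (h : IsExtremalTwentyFour x) {u : Fin 24 → ℝ}
    (hu : u ∈ spanLattice x) (hne : u ≠ 0) : 4 ≤ 4 * dot u u := by
  obtain ⟨m, hm⟩ := h.even hu
  have h0 : 0 < dot u u := lt_of_le_of_ne (sum_nonneg fun l _ => mul_self_nonneg (u l))
    (Ne.symm fun e => hne (dot_self_eq_zero.1 e))
  by_contra hlt
  have hm1 : m = 1 := by
    have h1 : (0 : ℝ) < 2 * m := by linarith
    have h2 : (2 : ℝ) * m < 4 := by linarith
    have h3 : (0 : ℤ) < 2 * m := by exact_mod_cast h1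
    have h4 : (2 : ℤ) * m < 4 := by exact_mod_cast h2
    omega
  rw [hm1] at hm
  have hq : dot u u = 1 / 2 := by push_cast at hm; linarith
  choose a ha using fun b => h.inner hu (mem_span x b)
  obtain ⟨-, -, -, -, h2, h4, -, -⟩ := h.moments u
  have e2 := moment_int ha 2
  have e4 := moment_int ha 4
  rw [h2, hq] at e2
  rw [h4, hq] at e4
  norm_num at e2 e4
  have hle : (∑ b, (a b : ℝ) ^ 2) ≤ ∑ b, (a b : ℝ) ^ 4 := sum_le_sum fun b _ => by
    have : a b ^ 2 ≤ a b ^ 4 := by
      rcases eq_or_ne (a b) 0 with e | e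
      · simp [e]
      · have : 1 ≤ a b ^ 2 := by nlinarith [Int.one_le_abs e, sq_abs (a b)]
        nlinarith
    exact_mod_cast this
  linarith

/-- An orthogonal pair. -/
theorem IsExtremalTwentyFour.exists_orth (h : IsExtremalTwentyFour x) :
    ∃ a b, dot (x a) (x b) = 0 := by
  obtain ⟨c⟩ : Nonempty ι := Fintype.card_pos_iff.1 (by rw [h.card]; norm_num)
  by_contra! hno
  choose a ha using fun b => h.values c b
  obtain ⟨-, -, -, -, h2, h4, h6, -⟩ := h.moments (x c)
  have e2 := moment_int ha 2
  have e4 := moment_int ha 4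
  have e6 := moment_int ha 6
  rw [h2, h.unit] at e2
  rw [h4, h.unit] at e4
  rw [h6, h.unit] at e6
  have hz : ∀ b, a b ^ 6 - 21 * a b ^ 4 + 84 * a b ^ 2 - 64 = 0 := fun b => by
    have hne : a b ≠ 0 := fun e => hno c b (by have := ha b; rw [e] at this; simpa using this)
    rcases eq_or_ne c b with rfl | hcb
    · have : a c = 4 := by
        have := ha c
        rw [h.unit] at this
        exact_mod_cast (show (a c : ℝ) = 4 by linarith)
      rw [this]; norm_num
    have hd := (Zonal.kissing_le_twentyFour x (unit_sq h.unit) h.sep).2 h.card c b hcb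
    simp only [Set.mem_insert_iff, Set.mem_singleton_iff] at hd
    have hab := ha b
    have : a b = -4 ∨ a b = -2 ∨ a b = -1 ∨ a b = 1 ∨ a b = 2 := by
      rcases hd with e | e | e | e | e | e <;> rw [show dot (x c) (x b) = _ from e] at hab
      · exact Or.inl (by exact_mod_cast (show (a b : ℝ) = -4 by linarith))
      · exact Or.inr (Or.inl (by exact_mod_cast (show (a b : ℝ) = -2 by linarith)))
      · exact Or.inr (Or.inr (Or.inl (by exact_mod_cast (show (a b : ℝ) = -1 by linarith))))
      · exact absurd (by exact_mod_cast (show (a b : ℝ) = 0 by linarith)) hne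
      · exact Or.inr (Or.inr (Or.inr (Or.inl (by exact_mod_cast (show (a b : ℝ) = 1 by linarith)))))
      · exact Or.inr (Or.inr (Or.inr (Or.inr (by exact_mod_cast (show (a b : ℝ) = 2 by linarith)))))
    rcases this with e | e | e | e | e <;> rw [e] <;> norm_num
  have hs : ((∑ b, (a b ^ 6 - 21 * a b ^ 4 + 84 * a b ^ 2 - 64) : ℤ) : ℝ) = 0 := by
    rw [sum_eq_zero fun b _ => hz b]; simp
  simp only [sum_add_distrib, sum_sub_distrib, ← mul_sum, sum_const, card_univ, h.card] at hs
  push_cast at hs e2 e4 e6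
  norm_num at hs e2 e4 e6
  linarith

/-- **A frame of the lattice.** -/
theorem IsExtremalTwentyFour.exists_frame (h : IsExtremalTwentyFour x) :
    ∃ e : Fin 24 → Fin 24 → ℝ, (∀ i, e i ∈ spanLattice x) ∧
      (∀ i j, dot (e i) (e j) = if i = j then 2 else 0) ∧
      ∀ i j, ∃ w ∈ spanLattice x, e i - e j = (2 : ℝ) • w := by
  obtain ⟨v, w, hvw⟩ := h.exists_orth
  set u := x v + x w with hu
  have huL : u ∈ spanLattice x := add_mem (mem_span x v) (mem_span x w)
  have huu : dot u u = 2 := by
    simp only [hu, dot_add_left, dot_add_right, h.unit, hvw, dot_comm' (x w) (x v)]; norm_num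
  choose a ha using fun b => h.inner huL (mem_span x b)
  have hbound : ∀ b, -4 ≤ a b ∧ a b ≤ 4 := fun b => by
    have hb : dot (x b) (x b) = 1 := h.unit b
    have h1 := h.min (sub_mem huL (mem_span x b)) fun e => by
      rw [sub_eq_zero.1 e, hb] at huu
      norm_num at huu
    have h2 := h.min (add_mem huL (mem_span x b)) fun e => by
      rw [eq_neg_of_add_eq_zero_left e, dot_neg_left, dot_neg_right, neg_neg, hb] at huu
      norm_num at huu
    simp only [dot_sub_left, dot_sub_right, dot_add_left, dot_add_right, huu, hb,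
      dot_comm' (x b) u] at h1 h2
    have := ha b
    exact ⟨by exact_mod_cast (show ((-4 : ℤ) : ℝ) ≤ (a b : ℝ) by push_cast; linarith),
      by exact_mod_cast (show (a b : ℝ) ≤ ((4 : ℤ) : ℝ) by push_cast; linarith)⟩
  have hpoly : ∀ b, a b ^ 8 + 4 * a b ^ 7 - 14 * a b ^ 6 - 56 * a b ^ 5 + 49 * a b ^ 4 +
      196 * a b ^ 3 - 36 * a b ^ 2 - 144 * a b = if a b = 4 then 40320 else 0 := fun b => by
    obtain ⟨h1, h2⟩ := hbound b
    generalize a b = t at h1 h2 ⊢
    interval_cases t <;> norm_num
  have hsum := congrArg (fun z : ℤ => (z : ℝ)) (sum_congr (s₁ := univ) rfl fun b _ => hpoly b)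
  simp only [sum_add_distrib, sum_sub_distrib, ← mul_sum, Int.cast_sub, Int.cast_add,
    Int.cast_mul, moment_int ha] at hsum
  obtain ⟨m1, m3, m5, m7, m2, m4, m6, m8⟩ := h.moments u
  have e1 : ((∑ b, a b : ℤ) : ℝ) = 4 * moment x u 1 := by
    simpa using moment_int ha 1
  rw [e1, m1, m3, m5, m7, m2, m4, m6, m8, huu, sum_ite, sum_const_zero, add_zero, sum_const,
    nsmul_eq_mul] at hsum
  push_cast at hsum
  set B := univ.filter fun b => a b = 4 with hB
  have hBcard : B.card = 46 := by
    have : ((B.card : ℕ) : ℝ) = 46 := by linarith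
    exact_mod_cast this
  set f : ι → Fin 24 → ℝ := fun b => (2 : ℝ) • x b - u with hf
  have hfa : ∀ b ∈ B, dot u (x b) = 1 := fun b hb => by
    have := ha b
    rw [(mem_filter.1 hb).2] at this
    push_cast at this
    linarith
  have hinj : Function.Injective x := fun a b e => by
    by_contra hne
    have := h.sep a b hne
    rw [e, h.unit] at this
    norm_num at this
  set F := insert u (insert (-u) (B.image f)) with hFdef
  have hFp : ∀ y ∈ F, dot y y = 2 ∧ ∃ z ∈ spanLattice x, y = (2 : ℝ) • z + u := fun y hy => by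
    simp only [hFdef, mem_insert, mem_image] at hy
    rcases hy with rfl | rfl | ⟨b, hb, rfl⟩
    · exact ⟨huu, 0, zero_mem _, by simp⟩
    · refine ⟨by rw [dot_neg_left, dot_neg_right, neg_neg, huu], -u, neg_mem huL, ?_⟩
      rw [two_smul]; abel
    · refine ⟨?_, x b - u, sub_mem (mem_span x b) huL, by simp only [hf, smul_sub, two_smul ℝ u]; abel⟩
      simp only [hf, dot_sub_left, dot_sub_right, dot_smul_left, dot_smul_right, h.unit, huu,
        dot_comm' (x b) u, hfa b hb]
      norm_num
  have hdiff : ∀ y ∈ F, ∀ y' ∈ F, ∃ z ∈ spanLattice x, y - y' = (2 : ℝ) • z := fun y hy y' hy' => by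
    obtain ⟨-, z, hz, rfl⟩ := hFp y hy
    obtain ⟨-, z', hz', rfl⟩ := hFp y' hy'
    exact ⟨z - z', sub_mem hz hz', by rw [smul_sub]; abel⟩
  have hFL : ∀ y ∈ F, y ∈ spanLattice x := fun y hy => by
    obtain ⟨-, z, hz, rfl⟩ := hFp y hy
    rw [two_smul]
    exact add_mem (add_mem hz hz) huL
  have hpair : ∀ y ∈ F, ∀ y' ∈ F, y = y' ∨ y = -y' ∨ dot y y' = 0 := fun y hy y' hy' => by
    obtain ⟨z, hz, e⟩ := hdiff y hy y' hy'
    rcases eq_or_ne z 0 with rfl | hz0
    · exact Or.inl (sub_eq_zero.1 (by simpa using e))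
    rcases eq_or_ne (z + y') 0 with hz1 | hz1
    · refine Or.inr (Or.inl ?_)
      rw [eq_neg_of_add_eq_zero_left hz1, two_smul] at e
      rw [sub_eq_iff_eq_add.1 e]; abel
    refine Or.inr (Or.inr ?_)
    have hy1 := (hFp y hy).1
    have hy2 := (hFp y' hy').1
    have m1 := h.min hz hz0
    have m2 := h.min (add_mem hz (hFL y' hy')) hz1
    have e' : y + y' = (2 : ℝ) • (z + y') := by
      rw [smul_add, ← e, two_smul]; abel
    have n1 := congrArg (fun v => dot v v) e
    have n2 := congrArg (fun v => dot v v) e'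
    simp only [dot_sub_left, dot_sub_right, dot_smul_left, dot_smul_right, hy1, hy2,
      dot_comm' y' y] at n1
    rw [dot_smul_left, dot_smul_right] at n2
    simp only [dot_add_left y y', dot_add_right y y y', dot_add_right y' y y', hy1, hy2,
      dot_comm' y' y] at n2
    linarith
  have hFcard : 48 ≤ F.card := by
    have hfinj : Set.InjOn f B := fun a _ b _ e => hinj (by
      have : (2 : ℝ) • x a = (2 : ℝ) • x b := sub_left_injective e
      exact smul_right_injective _ (two_ne_zero (α := ℝ)) this)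
    have hdot : ∀ b ∈ B, dot (f b) u = 0 := fun b hb => by
      simp only [hf, dot_sub_left, dot_smul_left, huu, dot_comm' (x b) u, hfa b hb]; norm_num
    have hu1 : u ∉ insert (-u) (B.image f) := by
      simp only [mem_insert, mem_image, not_or, not_exists, not_and]
      refine ⟨fun e => ?_, fun b hb e => ?_⟩
      · have := congrArg (fun v => dot v u) e
        simp only [dot_neg_left, huu] at this
        norm_num at this
      · have := hdot b hb
        rw [e, huu] at this
        norm_num at this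
    have hu2 : -u ∉ B.image f := by
      simp only [mem_image, not_exists, not_and]
      intro b hb e
      have := hdot b hb
      rw [e, dot_neg_left, huu] at this
      norm_num at this
    rw [hFdef, card_insert_of_notMem hu1, card_insert_of_notMem hu2, card_image_of_injOn hfinj,
      hBcard]
  obtain ⟨e, he, horth⟩ := exists_orth_frame F 2 two_ne_zero (fun y hy => (hFp y hy).1) hpair hFcard
  exact ⟨e, fun i => hFL _ (he i), horth, fun i j => hdiff _ (he i) _ (he j)⟩

end TwentyFour

end FA.KissingUnique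

end
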