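import Fermat.Agent.KissingUnique.Lattice
import Fermat.Agent.KissingUnique.CountTwentyFour
import Fermat.Agent.Root.SummaryLeechLattice

/-!
# The extremal configuration in dimension `24` is that of the Leech lattice
-/

set_option autoImplicit false

noncomputable section

open Finset
open scoped Classical

namespace FA.KissingUnique

open FA.LeechUnique

variable {ι : Type*} [Fintype ι] {x : ι → Fin 24 → ℝ}

/-- Completeness of an orthogonal family of full size. -/
theorem sum_dot_mul_dot {n : ℕ} {e : Fin n → Fin n → ℝ} {N : ℝ} (hN : N ≠ 0)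
    (he : ∀ i j, dot (e i) (e j) = if i = j then N else 0) (u w : Fin n → ℝ) :
    ∑ i, dot u (e i) * dot w (e i) = N * dot u w := by
  let E : Matrix (Fin n) (Fin n) ℝ := Matrix.of e
  have h1 : (N⁻¹ • E) * E.transpose = 1 := Matrix.ext fun i j => by
    rw [smul_mul_assoc, Matrix.smul_apply, Matrix.mul_apply, Matrix.one_apply]
    show N⁻¹ • dot (e i) (e j) = _
    rw [he, smul_eq_mul]
    split_ifs <;> simp [hN]
  have h2 : E.transpose * (N⁻¹ • E) = 1 := mul_eq_one_comm.1 h1
  have h3 : ∀ k l, ∑ i, e i k * e i l = if k = l then N else 0 := fun k l => by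
    have := congrFun (congrFun h2 k) l
    simp only [Matrix.smul_apply, Matrix.mul_apply, Matrix.transpose_apply,
      Matrix.one_apply, smul_eq_mul, E, Matrix.of_apply] at this
    rw [sum_congr rfl fun i _ => mul_left_comm (e i k) N⁻¹ (e i l), ← mul_sum,
      inv_mul_eq_iff_eq_mul₀ hN] at this
    rw [this]
    split_ifs <;> simp
  calc ∑ i, dot u (e i) * dot w (e i)
      = ∑ i, ∑ k, ∑ l, u k * w l * (e i k * e i l) := sum_congr rfl fun i _ => by
        rw [dot, dot, sum_mul_sum]
        exact sum_congr rfl fun k _ => sum_congr rfl fun l _ => by ring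
    _ = ∑ k, ∑ l, u k * w l * ∑ i, (e i k * e i l) := by
        rw [sum_comm]
        exact sum_congr rfl fun k _ => by rw [sum_comm]; simp only [mul_sum]
    _ = N * dot u w := by
        simp only [h3, mul_ite, mul_zero, sum_ite_eq, mem_univ, if_true, dot, mul_sum]
        exact sum_congr rfl fun k _ => by ring

/-- **Bannai and Sloane**: up to a linear isometry an extremal configuration is the shortest
vectors of Conway's lattice. -/
theorem IsExtremalTwentyFour.unique (h : IsExtremalTwentyFour x) :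
    ∃ A : (Fin 24 → ℝ) →ₗ[ℝ] (Fin 24 → ℝ), (∀ u w, dot (A u) (A w) = dot u w) ∧
      A '' Set.range x = {y | ∃ z ∈ Summary.leechLattice, ∑ i, z i ^ 2 = 32 ∧
        y = fun i => (z i : ℝ) / Real.sqrt 32} := by
  obtain ⟨e, heL, he, hdiff⟩ := h.exists_frame
  have hcomp := sum_dot_mul_dot two_ne_zero he
  let Λ : AddSubgroup (Fin 24 → ℤ) :=
    { carrier := {z | ∃ u ∈ spanLattice x, ∀ i, (z i : ℝ) = 4 * dot u (e i)}
      add_mem' := by
        rintro a b ⟨u, hu, ha⟩ ⟨w, hw, hb⟩
        exact ⟨u + w, add_mem hu hw, fun i => by simp [dot_add_left, ha, hb, mul_add]⟩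
      zero_mem' := ⟨0, zero_mem _, fun i => by simp [dot_zero_left]⟩
      neg_mem' := by
        rintro a ⟨u, hu, ha⟩
        exact ⟨-u, neg_mem hu, fun i => by simp [dot_neg_left, ha]⟩ }
  have hdotZ : ∀ {a b : Fin 24 → ℤ} {u w : Fin 24 → ℝ}, (∀ i, (a i : ℝ) = 4 * dot u (e i)) →
      (∀ i, (b i : ℝ) = 4 * dot w (e i)) → ((dotProduct a b : ℤ) : ℝ) = 32 * dot u w := by
    intro a b u w ha hb
    rw [dotProduct]
    push_cast
    simp only [ha, hb]
    rw [sum_congr rfl fun i _ => mul_mul_mul_comm (4 : ℝ) _ 4 _, ← mul_sum, hcomp]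
    ring
  have hcoord : ∀ {u}, u ∈ spanLattice x →
      ∃ z : Fin 24 → ℤ, ∀ i, (z i : ℝ) = 4 * dot u (e i) := fun hu => by
    choose z hz using fun i => h.inner hu (heL i)
    exact ⟨z, fun i => (hz i).symm⟩
  have hax : ∀ j, Pi.single j (8 : ℤ) ∈ Λ := fun j => ⟨e j, heL j, fun i => by
    rw [he]
    rcases eq_or_ne i j with rfl | hij
    · norm_num
    · rw [Pi.single_eq_of_ne hij, if_neg hij.symm]; simp⟩
  have hpairs : ∀ j, (4 : ℤ) • (Pi.single j 1 - Pi.single 0 1 : Fin 24 → ℤ) ∈ Λ := fun j => by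
    obtain ⟨w, hw, hjw⟩ := hdiff j 0
    refine ⟨w, hw, fun i => ?_⟩
    have h2 := congrArg (fun v => dot v (e i)) hjw
    simp only [dot_sub_left, he, dot_smul_left] at h2
    simp only [Pi.smul_apply, Pi.sub_apply, smul_eq_mul, Pi.single_apply]
    push_cast
    rw [show (4 : ℝ) * dot w (e i) = 2 * (2 * dot w (e i)) by ring, ← h2]
    simp only [eq_comm (a := i)]
    split_ifs <;> norm_num
  have hpre : IsPreFrame Λ := by
    refine ⟨?_, ?_, ?_, ?_, fun z hz => ?_⟩
    · rintro a ⟨u, hu, ha⟩ i j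
      obtain ⟨w, hw, hij⟩ := hdiff i j
      obtain ⟨m, hm⟩ := h.inner hu hw
      have h2 := congrArg (fun v => dot u v) hij
      simp only [dot_sub_right, dot_smul_right] at h2
      have : ((a i - a j : ℤ) : ℝ) = ((2 * m : ℤ) : ℝ) := by
        push_cast
        rw [ha, ha, ← hm]
        linarith
      have : a i - a j = 2 * m := by exact_mod_cast this
      omega
    · rintro a ⟨u, hu, ha⟩ b ⟨w, hw, hb⟩
      obtain ⟨m, hm⟩ := h.inner hu hw
      exact ⟨m, by exact_mod_cast (show ((dotProduct a b : ℤ) : ℝ) = ((8 * m : ℤ) : ℝ) by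
        rw [hdotZ ha hb]; push_cast; rw [← hm]; ring)⟩
    · rintro a ⟨u, hu, ha⟩
      obtain ⟨m, hm⟩ := h.even hu
      exact ⟨m, by exact_mod_cast (show ((dotProduct a a : ℤ) : ℝ) = ((16 * m : ℤ) : ℝ) by
        rw [hdotZ ha ha]; push_cast; linarith)⟩
    · rintro a ⟨u, hu, ha⟩ hne
      have hu0 : u ≠ 0 := fun e0 => hne (funext fun i => by
        have := ha i
        rw [e0, dot_zero_left, mul_zero] at this
        exact_mod_cast this)
      have h4 := h.min hu hu0
      exact_mod_cast (show ((32 : ℤ) : ℝ) ≤ ((dotProduct a a : ℤ) : ℝ) by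
        rw [hdotZ ha ha]; push_cast; linarith)
    · obtain ⟨k, hk⟩ := hz
      rw [show (4 : ℤ) • z = ∑ j, z j • ((4 : ℤ) • (Pi.single j 1 - Pi.single 0 1 : Fin 24 → ℤ)) +
          k • Pi.single 0 8 from funext fun i => by
        simp only [Pi.add_apply, Finset.sum_apply, Pi.smul_apply, Pi.sub_apply, smul_eq_mul,
          Pi.single_apply, mul_sub, sum_sub_distrib, mul_ite, mul_one, mul_zero, sum_ite_eq,
          mem_univ, if_true]
        by_cases hi : i = 0
        · subst hi
          simp only [if_true, ← sum_mul, hk]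
          ring
        · simp only [if_neg hi, sum_const_zero]
          ring]
      exact add_mem (sum_mem fun j _ => zsmul_mem (hpairs j) _) (zsmul_mem (hax 0) _)
  choose ζ hζ using fun b => hcoord (mem_span x b)
  set V := univ.image ζ
  have hV : ∀ z ∈ V, z ∈ Λ ∧ dotProduct z z = 32 := fun z hz => by
    obtain ⟨b, -, rfl⟩ := mem_image.1 hz
    exact ⟨⟨x b, mem_span x b, hζ b⟩, by
      exact_mod_cast (show ((dotProduct (ζ b) (ζ b) : ℤ) : ℝ) = ((32 : ℤ) : ℝ) by
        rw [hdotZ (hζ b) (hζ b), h.unit]; norm_num)⟩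
  have hζinj : Function.Injective ζ := fun a b hab => by
    by_contra hne
    have h1 := hdotZ (hζ a) (hζ b)
    rw [← hab, hdotZ (hζ a) (hζ a), h.unit] at h1
    have := h.sep a b hne
    linarith
  have hVcard : V.card = 196560 := by rw [card_image_of_injective _ hζinj, card_univ, h.card]
  obtain ⟨hG, x₁, hx₁, hodd⟩ := golay_of_short_count hpre V hV hVcard
  obtain ⟨σ, s, hs, hall⟩ := hpre.monomial_inL hG hx₁ hodd
  let A : (Fin 24 → ℝ) →ₗ[ℝ] (Fin 24 → ℝ) :=
    { toFun := fun u i => (s i : ℝ) * (4 * dot u (e (σ i))) / Real.sqrt 32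
      map_add' := fun u w => funext fun i => by simp [dot_add_left, mul_add, add_div]
      map_smul' := fun c u => funext fun i => by
        simp only [dot_smul_left, Pi.smul_apply, smul_eq_mul, RingHom.id_apply]; ring }
  have hsq : Real.sqrt 32 * Real.sqrt 32 = 32 := Real.mul_self_sqrt (by norm_num)
  have hs1 : ∀ i, (s i : ℝ) * s i = 1 := fun i => by rcases hs i with e | e <;> rw [e] <;> norm_num
  refine ⟨A, fun u w => ?_, ?_⟩
  · calc dot (A u) (A w)
        = ∑ i, 1 / 2 * (dot u (e (σ i)) * dot w (e (σ i))) := sum_congr rfl fun i _ => by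
          show (s i : ℝ) * _ / _ * ((s i : ℝ) * _ / _) = _
          rw [div_mul_div_comm, mul_mul_mul_comm, hs1, hsq]
          ring
      _ = dot u w := by
          rw [← mul_sum, Equiv.sum_comp σ fun i => dot u (e i) * dot w (e i), hcomp]; ring
  have hAx : ∀ b, A (x b) = fun i => ((monomial σ s (ζ b) i : ℤ) : ℝ) / Real.sqrt 32 := fun b =>
    funext fun i => by
      show (s i : ℝ) * _ / _ = _
      rw [monomial_apply, ← hζ]
      push_cast
      rfl
  set S := {z : Fin 24 → ℤ | z ∈ Summary.leechLattice ∧ ∑ i, z i ^ 2 = 32}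
  have hS : S.ncard = 196560 := by
    rw [← Nat.card_coe_set_eq]
    exact Summary.leech_minimal.2
  have himg : Set.range (fun b => monomial σ s (ζ b)) = S := by
    refine Set.eq_of_subset_of_ncard_le ?_ ?_ (Set.finite_of_ncard_ne_zero (by omega))
    · rintro _ ⟨b, rfl⟩
      refine ⟨Summary.mem_leechLattice.2 (hall _ ⟨x b, mem_span x b, hζ b⟩), ?_⟩
      have h2 := (hV _ (mem_image_of_mem ζ (mem_univ b))).2
      rw [← monomial_dot hs (σ := σ)] at h2
      simpa [dotProduct, sq] using h2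
    · rw [hS, Set.ncard_range_of_injective (f := fun b => monomial σ s (ζ b))
        ((monomial_injective hs).comp hζinj), Nat.card_eq_fintype_card, h.card]
  ext y
  constructor
  · rintro ⟨_, ⟨b, rfl⟩, rfl⟩
    have hb : monomial σ s (ζ b) ∈ S := himg ▸ ⟨b, rfl⟩
    exact ⟨_, hb.1, hb.2, hAx b⟩
  · rintro ⟨z, hz, hz2, rfl⟩
    obtain ⟨b, rfl⟩ := (himg.symm ▸ (show z ∈ S from ⟨hz, hz2⟩) :
      z ∈ Set.range fun b => monomial σ s (ζ b))
    exact ⟨x b, ⟨b, rfl⟩, hAx b⟩

end FA.KissingUnique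

end
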